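import Mathlib
import Fermat.Agent.S18x.Dict.H20_GaussVal
import Fermat.Agent.S28.Mod.H14_PolyJ
import Fermat.Agent.S28.Alg.H1_Defs
import Fermat.Agent.S28.Alg.H18_QepbPoly
import Fermat.Agent.S28.Alg.H29_Basis

/-!
# S18, package QEPO (helper1): the Gauss leaves over a general discrete valuation ring

`K` a field, `O : ValuationSubring K` a discrete valuation ring with uniformiser `π`,
`κ = O / π`, `V = gaussRing O ⊆ K((q))` (helper20), `red = gaussRed O : V → κ((q))`,
`K(j) = kappa K ⊆ K((q))`, `κ(j̄) = kappa κ ⊆ κ((q))`.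

* `exists_content_form` : a nonzero `P ∈ K[X]` is `c * P'`, `c ∈ Kˣ`, `P' ∈ O[X]` with nonzero
  reduction;
* `exists_normal_form_kj` : a nonzero `x ∈ K(j)` satisfies `x * s(j) = π ^ e * r(j)` with
  `r, s ∈ O[X]` of nonzero reduction;
* `gaussRed_mem_kappa` : `red (K(j) ∩ V) ⊆ κ(j̄)`;
* `isLocFrac_of_mem` : `K(j) ∩ V` is the localisation of `O[j]` at `(π)`;
* `poly_of_aeval_mem_gaussRing` : `K[j] ∩ V = O[j]`;
* `basisHyp` : the hypotheses of the abstract basis argument (S28 `BasisHyp`) for `E = K(j)`,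
  `F = K((q))`, `W = V`.
-/

set_option autoImplicit false
set_option linter.unusedSectionVars false
set_option linter.style.haveILetI false

open ModularCurve Polynomial

noncomputable section

namespace Fermat.Agent.S18x.Qepo

open Fermat.Agent.S18x.Dict.H20 Fermat.Agent.S28.Mod.PolyJ Fermat.Agent.S28.Alg

variable {K : Type} [Field K] (O : ValuationSubring K)

/-- The residue field of `O`. -/
abbrev Kp : Type := IsLocalRing.ResidueField O

/-- **Content form**: a nonzero `P ∈ K[X]` is `c * P'` with `c ≠ 0` and `P' ∈ O[X]` having a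
coefficient equal to `1`. -/
theorem exists_content_form {P : K[X]} (hP : P ≠ 0) :
    ∃ (c : K) (P' : O[X]), c ≠ 0 ∧ P'.map (IsLocalRing.residue O) ≠ 0 ∧
      P = C c * P'.map O.subtype := by
  have hne : P.support.Nonempty := by
    rw [Finset.nonempty_iff_ne_empty, ne_eq, Polynomial.support_eq_empty]
    exact hP
  obtain ⟨i₀, hi₀, hmax⟩ := Finset.exists_max_image P.support
    (fun i => O.valuation (P.coeff i)) hne
  set c : K := P.coeff i₀ with hc
  have hc0 : c ≠ 0 := Polynomial.mem_support_iff.mp hi₀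
  have hvc : 0 < O.valuation c := by
    rw [Valuation.pos_iff]
    exact hc0
  have hmem : ∀ i, c⁻¹ * P.coeff i ∈ O := by
    intro i
    by_cases hi : P.coeff i = 0
    · rw [hi, mul_zero]; exact zero_mem _
    · rw [← O.valuation_le_one_iff, map_mul, map_inv₀, inv_mul_le_one₀ hvc]
      exact hmax i (Polynomial.mem_support_iff.mpr hi)
  have hlift : C c⁻¹ * P ∈ Polynomial.lifts O.subtype := by
    rw [Polynomial.lifts_iff_coeff_lifts]
    intro i
    rw [Polynomial.coeff_C_mul]
    exact ⟨⟨_, hmem i⟩, rfl⟩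
  obtain ⟨P', hP'⟩ := (Polynomial.mem_lifts _).mp hlift
  refine ⟨c, P', hc0, ?_, ?_⟩
  · intro h0
    have h1 : (P'.map (IsLocalRing.residue O)).coeff i₀ = 0 := by
      rw [h0, Polynomial.coeff_zero]
    rw [Polynomial.coeff_map] at h1
    have h2 : ((P'.coeff i₀ : O) : K) = 1 := by
      have := congrArg (fun p => p.coeff i₀) hP'
      simp only [Polynomial.coeff_map, Polynomial.coeff_C_mul] at this
      rw [← hc, inv_mul_cancel₀ hc0] at this
      exact this
    have h3 : P'.coeff i₀ = 1 := Subtype.ext h2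
    rw [h3, map_one] at h1
    exact one_ne_zero h1
  · rw [hP', ← mul_assoc, ← C_mul, mul_inv_cancel₀ hc0, C_1, one_mul]

variable [IsDiscreteValuationRing O] (π : O) (hπ : Irreducible π)

include hπ

/-- Every nonzero element of `K` is `π ^ e * w` with `w` a unit of `O`. -/
theorem exists_zpow_mul_unit {c : K} (hc : c ≠ 0) :
    ∃ (e : ℤ) (w : Oˣ), c = (π : K) ^ e * ((w : O) : K) := by
  have hπ0 : (π : K) ≠ 0 := unif_coe_ne_zero O π hπ
  have key : ∀ x : O, x ≠ 0 → ∃ (n : ℕ) (w : Oˣ), (x : K) = (π : K) ^ n * ((w : O) : K) := by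
    intro x hx
    obtain ⟨n, u, hu⟩ := IsDiscreteValuationRing.eq_unit_mul_pow_irreducible hx hπ
    refine ⟨n, u, ?_⟩
    rw [hu]
    push_cast
    ring
  rcases O.mem_or_inv_mem c with h | h
  · obtain ⟨n, w, hw⟩ := key ⟨c, h⟩ (fun h0 => hc (congrArg Subtype.val h0))
    exact ⟨n, w, by rw [zpow_natCast]; exact hw⟩
  · obtain ⟨n, w, hw⟩ := key ⟨c⁻¹, h⟩
      (fun h0 => inv_ne_zero hc (congrArg Subtype.val h0))
    refine ⟨-(n : ℤ), w⁻¹, ?_⟩
    have hw' : c⁻¹ = (π : K) ^ n * ((w : O) : K) := hw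
    have h1 : ((w : O) : K) * (((w⁻¹ : Oˣ) : O) : K) = 1 := by
      rw [← Subring.coe_mul]
      have : (w : O) * ((w⁻¹ : Oˣ) : O) = 1 := by
        rw [← Units.val_mul, mul_inv_cancel, Units.val_one]
      rw [this]
      rfl
    have hw0 : ((w : O) : K) ≠ 0 := left_ne_zero_of_mul_eq_one h1
    have h2 : (((w⁻¹ : Oˣ) : O) : K) = (((w : O) : K))⁻¹ := eq_inv_of_mul_eq_one_right h1
    rw [zpow_neg, zpow_natCast, h2, ← mul_inv, ← hw', inv_inv]

omit hπ in
theorem gIota_aeval (r : O[X]) :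
    gIota O (aeval (jqModC O) r) = aeval (jqModC K) (r.map O.subtype) :=
  coeffMap_aeval_jqModC _ r

omit hπ in
theorem gRed_aeval (r : O[X]) :
    gRed O (aeval (jqModC O) r) = aeval (jqModC (Kp O)) (r.map (IsLocalRing.residue O)) :=
  coeffMap_aeval_jqModC _ r

omit hπ in
theorem gRed_aeval_ne_zero {r : O[X]} (h : r.map (IsLocalRing.residue O) ≠ 0) :
    gRed O (aeval (jqModC O) r) ≠ 0 := by
  rw [gRed_aeval]
  exact fun h0 => h (eq_zero_of_aeval_jqModC_eq_zero _ h0)

omit hπ in
theorem algebraMap_eq_C (c : K) : algebraMap K (LaurentSeries K) c = HahnSeries.C c := by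
  rw [algebraMap_laurentSeries_eq_single, HahnSeries.C_apply]

omit hπ in
theorem aeval_mem_kappa (k : Type) [Field k] (p : k[X]) : aeval (jqModC k) p ∈ kappa k := by
  have h1 : aeval (jqModC k) p ∈ Algebra.adjoin k {jqModC k} :=
    Polynomial.aeval_mem_adjoin_singleton k (jqModC k)
  exact IntermediateField.algebra_adjoin_le_adjoin k _ h1

omit hπ in
theorem C_mem_kappa (k : Type) [Field k] (c : k) :
    (HahnSeries.C c : LaurentSeries k) ∈ kappa k := by
  rw [← algebraMap_eq_C]
  exact (kappa k).algebraMap_mem c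

/-- **Normal form on `K(j)`**: every nonzero `x ∈ K(j)` satisfies `x * s(j) = π ^ e * r(j)` with
`r, s` polynomials over `O` of nonzero reduction. -/
theorem exists_normal_form_kj {x : LaurentSeries K} (hx : x ∈ kappa K) (hx0 : x ≠ 0) :
    ∃ (e : ℤ) (r s : O[X]), r.map (IsLocalRing.residue O) ≠ 0 ∧
      s.map (IsLocalRing.residue O) ≠ 0 ∧
      x * gIota O (aeval (jqModC O) s) =
        (HahnSeries.C (π : K) : LaurentSeries K) ^ e * gIota O (aeval (jqModC O) r) := by
  obtain ⟨R, S, hRS⟩ := (IntermediateField.mem_adjoin_simple_iff K x).mp hx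
  have hS0 : aeval (jqModC K) S ≠ 0 := by
    intro h0
    rw [h0, div_zero] at hRS
    exact hx0 hRS
  have hR0 : aeval (jqModC K) R ≠ 0 := by
    intro h0
    rw [h0, zero_div] at hRS
    exact hx0 hRS
  have hS : S ≠ 0 := fun h => hS0 (by rw [h, map_zero])
  have hR : R ≠ 0 := fun h => hR0 (by rw [h, map_zero])
  obtain ⟨c₁, R', hc₁, hR', hRe⟩ := exists_content_form O hR
  obtain ⟨c₂, S', hc₂, hS', hSe⟩ := exists_content_form O hS
  obtain ⟨e, w, hw⟩ := exists_zpow_mul_unit O π hπ (div_ne_zero hc₁ hc₂)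
  have hπ0 : (HahnSeries.C (π : K) : LaurentSeries K) ≠ 0 := C_unif_ne_zero O π hπ
  have hresw : IsLocalRing.residue O (w : O) ≠ 0 := by
    rw [Ne, IsLocalRing.residue_eq_zero_iff]
    exact fun h => (IsLocalRing.mem_maximalIdeal _).mp h w.isUnit
  refine ⟨e, C (w : O) * R', S', ?_, hS', ?_⟩
  · rw [Polynomial.map_mul, Polynomial.map_C]
    exact mul_ne_zero (fun h => hresw (Polynomial.C_eq_zero.mp h)) hR'
  · rw [gIota_aeval, gIota_aeval, Polynomial.map_mul, Polynomial.map_C, map_mul, aeval_C,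
      algebraMap_eq_C]
    have hRj : aeval (jqModC K) R =
        HahnSeries.C c₁ * aeval (jqModC K) (R'.map O.subtype) := by
      conv_lhs => rw [hRe]
      rw [map_mul, aeval_C, algebraMap_eq_C]
    have hSj : aeval (jqModC K) S =
        HahnSeries.C c₂ * aeval (jqModC K) (S'.map O.subtype) := by
      conv_lhs => rw [hSe]
      rw [map_mul, aeval_C, algebraMap_eq_C]
    have hc₂' : (HahnSeries.C c₂ : LaurentSeries K) ≠ 0 := by
      intro h
      exact hc₂ (HahnSeries.C_injective (by rw [h, map_zero]))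
    have hS'0 : aeval (jqModC K) (S'.map O.subtype) ≠ 0 := by
      intro h
      rw [hSj, h, mul_zero] at hS0
      exact hS0 rfl
    have hcw : (HahnSeries.C c₁ : LaurentSeries K) =
        HahnSeries.C c₂ * (HahnSeries.C (π : K) ^ e * HahnSeries.C (((w : O) : K))) := by
      rw [← map_zpow₀, ← map_mul, ← map_mul, ← hw, mul_div_cancel₀ _ hc₂]
    rw [hRS, hRj, hSj, hcw]
    have : (O.subtype (w : O)) = ((w : O) : K) := rfl
    rw [this]
    field_simp

/-- If `y ∈ V` and `y = π ^ e * a` with `a ∈ O((q))` of nonzero reduction, then `e ≥ 0`. -/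
theorem nonneg_of_mem_gaussRing {y : LaurentSeries K} (hy : y ∈ gaussRing O) {e : ℤ}
    {a : LaurentSeries O} (ha : gRed O a ≠ 0)
    (h : y = (HahnSeries.C (π : K) : LaurentSeries K) ^ e * gIota O a) : 0 ≤ e := by
  by_contra hneg
  push Not at hneg
  obtain ⟨m, hm⟩ : ∃ m : ℕ, e = -((m : ℤ) + 1) := ⟨(-e - 1).toNat, by omega⟩
  have hπ0 : (HahnSeries.C (π : K) : LaurentSeries K) ≠ 0 := C_unif_ne_zero O π hπ
  have h1 : (HahnSeries.C (π : K) : LaurentSeries K) ^ (m + 1) * y = gIota O a := by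
    rw [h, hm, zpow_neg, ← Nat.cast_add_one, zpow_natCast, ← mul_assoc,
      mul_inv_cancel₀ (pow_ne_zero _ hπ0), one_mul]
  have h2 : (gaussC O π) ^ (m + 1) * ⟨y, hy⟩ =
      (⟨gIota O a, coeffMap_subtype_mem_gaussRing O a⟩ : gaussRing O) :=
    Subtype.ext (by simpa using h1)
  have h3 := congrArg (gaussRed O) h2
  rw [map_mul, map_pow, gaussRed_gaussC_unif O π hπ, zero_pow (Nat.succ_ne_zero m), zero_mul,
    gaussRed_coeffMap_subtype] at h3
  exact ha h3.symm

/-- **[QC-K] over `O`**: `red (K(j) ∩ V) ⊆ κ(j̄)`. -/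
theorem gaussRed_mem_kappa (x : gaussRing O) (hx : (x : LaurentSeries K) ∈ kappa K) :
    gaussRed O x ∈ kappa (Kp O) := by
  by_cases hx0 : (x : LaurentSeries K) = 0
  · have : x = 0 := Subtype.ext hx0
    rw [this, map_zero]
    exact zero_mem _
  obtain ⟨e, r, s, hr, hs, h⟩ := exists_normal_form_kj O π hπ hx hx0
  set a := aeval (jqModC O) r with ha
  set b := aeval (jqModC O) s with hb
  have hra : gRed O a ≠ 0 := gRed_aeval_ne_zero O hr
  have hrb : gRed O b ≠ 0 := gRed_aeval_ne_zero O hs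
  have hxe : (x : LaurentSeries K) * gIota O b ∈ gaussRing O :=
    mul_mem x.2 (coeffMap_subtype_mem_gaussRing O b)
  have he : 0 ≤ e := nonneg_of_mem_gaussRing O π hπ hxe hra h
  obtain ⟨m, rfl⟩ := Int.eq_ofNat_of_zero_le he
  rw [zpow_natCast] at h
  have h' : (x : LaurentSeries K) * gIota O b = gIota O (HahnSeries.C π ^ m * a) := by
    rw [h, map_mul, map_pow, gIota_C]
  rw [gaussRed_eq O x _ b hrb h', map_mul, map_pow, gRed_C]
  refine div_mem (mul_mem (pow_mem (C_mem_kappa _ _) m) ?_) ?_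
  · rw [ha, gRed_aeval]
    exact aeval_mem_kappa _ _
  · rw [hb, gRed_aeval]
    exact aeval_mem_kappa _ _

omit hπ in
/-- a nonzero reduction forbids divisibility by `π`. -/
theorem not_C_dvd_of_map_ne_zero {s : O[X]} (hs : s.map (IsLocalRing.residue O) ≠ 0)
    (hres : IsLocalRing.residue O π = 0) : ¬ (C π ∣ s) := by
  rintro ⟨s', rfl⟩
  apply hs
  rw [Polynomial.map_mul, Polynomial.map_C, hres, C_0, zero_mul]

/-- **Gauss inclusion over `O`**: an element of `K(j) ∩ V` is a fraction `a(j) / b(j)` with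
`a, b ∈ O[X]`, `π ∤ b`. -/
theorem exists_locFrac_of_mem {x : LaurentSeries K} (hV : x ∈ gaussRing O) (hx : x ∈ kappa K) :
    ∃ a b : O[X], ¬ (C π ∣ b) ∧
      x * aeval (jqModC K) (b.map O.subtype) = aeval (jqModC K) (a.map O.subtype) := by
  by_cases hx0 : x = 0
  · refine ⟨0, 1, ?_, by rw [hx0, zero_mul, Polynomial.map_zero, map_zero]⟩
    intro h
    have h1 : IsUnit (C π) := isUnit_of_dvd_one h
    exact hπ.not_isUnit (Polynomial.isUnit_C.mp h1)
  obtain ⟨e, r, s, hr, hs, h⟩ := exists_normal_form_kj O π hπ hx hx0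
  have hmem : x * gIota O (aeval (jqModC O) s) ∈ gaussRing O :=
    mul_mem hV (coeffMap_subtype_mem_gaussRing O _)
  have he : 0 ≤ e := nonneg_of_mem_gaussRing O π hπ hmem (gRed_aeval_ne_zero O hr) h
  obtain ⟨m, rfl⟩ := Int.eq_ofNat_of_zero_le he
  refine ⟨C (π ^ m) * r, s, not_C_dvd_of_map_ne_zero O π hs (residue_unif O π hπ), ?_⟩
  rw [← gIota_aeval, ← gIota_aeval, h, zpow_natCast, map_mul, map_mul, aeval_C]
  congr 1
  rw [coeffMap_algebraMap', algebraMap_eq_C, map_pow, map_pow]
  rfl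

omit hπ in
theorem coe_algebraMap_kappa (c : K) :
    ((algebraMap K (kappa K) c : kappa K) : LaurentSeries K) = HahnSeries.C c := by
  rw [← algebraMap_eq_C]
  rfl

omit hπ [IsDiscreteValuationRing O] in
theorem div_mem_gaussRing (a b : LaurentSeries O) (hb : gRed O b ≠ 0) :
    gIota O a / gIota O b ∈ gaussRing O :=
  ⟨a, b, hb, div_mul_cancel₀ _ (gIota_ne_zero O (ne_zero_of_gRed_ne_zero O hb))⟩

omit hπ [IsDiscreteValuationRing O] in
theorem gaussRed_div (a b : LaurentSeries O) (hb : gRed O b ≠ 0) :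
    gaussRed O ⟨gIota O a / gIota O b, div_mem_gaussRing O a b hb⟩ = gRed O a / gRed O b :=
  gaussRed_eq O ⟨gIota O a / gIota O b, div_mem_gaussRing O a b hb⟩ a b hb
    (div_mul_cancel₀ _ (gIota_ne_zero O (ne_zero_of_gRed_ne_zero O hb)))

/-- **The hypotheses of the abstract basis argument** hold for `E = K(j)`, `F = K((q))`,
`W = gaussRing O`, `ρ = gaussRed O`, `κ = κ(j̄)`. -/
theorem basisHyp :
    H29.BasisHyp (kappa (Kp O)) (gaussRing O) (gaussRed O)
      (algebraMap K (kappa K) (π : K)) where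
  π_ne := by
    intro h
    apply C_unif_ne_zero O π hπ
    have := congrArg (fun z : kappa K => (z : LaurentSeries K)) h
    simp only [coe_algebraMap_kappa] at this
    rw [this]
    rfl
  π_mem := by
    show ((algebraMap K (kappa K) (π : K) : kappa K) : LaurentSeries K) ∈ gaussRing O
    rw [coe_algebraMap_kappa]
    exact C_mem_gaussRing O π
  ρ_π := by
    have h1 : ∀ h : algebraMap (kappa K) (LaurentSeries K) (algebraMap K (kappa K) (π : K)) ∈
        gaussRing O,
        (⟨algebraMap (kappa K) (LaurentSeries K) (algebraMap K (kappa K) (π : K)), h⟩ :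
          gaussRing O) = gaussC O π :=
      fun h => Subtype.ext (coe_algebraMap_kappa (π : K))
    rw [h1]
    exact gaussRed_gaussC_unif O π hπ
  val := by
    intro c hc
    have hcL : ((c : kappa K) : LaurentSeries K) ≠ 0 := fun h => hc (Subtype.ext h)
    obtain ⟨e, r, s, hr, hs, h⟩ := exists_normal_form_kj O π hπ c.2 hcL
    set a := aeval (jqModC O) r with ha
    set b := aeval (jqModC O) s with hb
    have hra : gRed O a ≠ 0 := gRed_aeval_ne_zero O hr
    have hrb : gRed O b ≠ 0 := gRed_aeval_ne_zero O hs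
    have hb0 : gIota O b ≠ 0 := gIota_ne_zero O (ne_zero_of_gRed_ne_zero O hrb)
    have hπ0 : (HahnSeries.C (π : K) : LaurentSeries K) ≠ 0 := C_unif_ne_zero O π hπ
    have huK : gIota O a / gIota O b ∈ kappa K := by
      refine div_mem ?_ ?_
      · rw [ha, gIota_aeval]; exact aeval_mem_kappa _ _
      · rw [hb, gIota_aeval]; exact aeval_mem_kappa _ _
    have huV : gIota O a / gIota O b ∈ gaussRing O := div_mem_gaussRing O a b hrb
    have hρu : gaussRed O ⟨gIota O a / gIota O b, huV⟩ ≠ 0 := by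
      rw [gaussRed_div O a b hrb]
      exact div_ne_zero hra hrb
    have hcu : ((c : kappa K) : LaurentSeries K) =
        (HahnSeries.C (π : K) : LaurentSeries K) ^ e * (gIota O a / gIota O b) := by
      rw [← mul_div_assoc, ← h, mul_div_cancel_right₀ _ hb0]
    refine ⟨(-e).toNat, e.toNat, ⟨gIota O a / gIota O b, huK⟩, huV, hρu, ?_⟩
    apply Subtype.ext
    show ((algebraMap K (kappa K) (π : K) : kappa K) : LaurentSeries K) ^ (-e).toNat *
        (c : LaurentSeries K) =
      ((algebraMap K (kappa K) (π : K) : kappa K) : LaurentSeries K) ^ e.toNat *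
        (gIota O a / gIota O b)
    rw [coe_algebraMap_kappa, hcu]
    rcases le_or_gt 0 e with he | he
    · have h1 : (-e).toNat = 0 := Int.toNat_eq_zero.mpr (by omega)
      have h2 : ((e.toNat : ℕ) : ℤ) = e := Int.toNat_of_nonneg he
      rw [h1, pow_zero, one_mul, ← zpow_natCast, h2]
    · have h1 : e.toNat = 0 := Int.toNat_eq_zero.mpr he.le
      have h2 : (((-e).toNat : ℕ) : ℤ) = -e := Int.toNat_of_nonneg (by omega)
      rw [h1, pow_zero, one_mul, ← mul_assoc, ← zpow_natCast, h2, ← zpow_add₀ hπ0,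
        neg_add_cancel, zpow_zero, one_mul]
  kap := by
    intro u hu
    exact ⟨⟨_, gaussRed_mem_kappa O π hπ ⟨(u : LaurentSeries K), hu⟩ u.2⟩, rfl⟩

end Fermat.Agent.S18x.Qepo
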