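import Mathlib
import Fermat.Agent.S28.Asm.Defs
import Fermat.Agent.S24.H13_LinDisjoint
import Fermat.Agent.S24.H13_Transc

/-!
# S18, package QEPO, leaf (LD) (helper2): linear disjointness over the `j`-line

A family of Laurent series over `k` which is linearly independent over `k(x)` (`x` transcendental
over `k`) stays linearly independent over `k'(x')` after extension of the coefficient field
`k → k'`.  Consequence `degC_mono`: a `k(j)`-basis of `modularFunctionFieldFullC k M` stays
linearly independent over `k'(j)` inside `k'((q))`.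
-/

set_option autoImplicit false
set_option linter.unusedSectionVars false
set_option linter.style.haveILetI false
set_option synthInstance.maxHeartbeats 400000
set_option maxHeartbeats 1000000

open ModularCurve IntermediateField Polynomial

noncomputable section

namespace Fermat.Agent.S18x.Qepo.H2

open Fermat.Agent.S28.Asm Fermat.Agent.S24.LD

/-- `j` is transcendental over the field of constants. -/
theorem h2ld_transcendental_jq (k : Type*) [Field k] : Transcendental k (jqModC k) :=
  transcendental_of_coeff_ne_zero (n := -1) (by norm_num)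
    (by rw [coeff_jqModC_neg_one]; exact one_ne_zero)

section Core

variable {k k' : Type*} [Field k] [Field k']

/-- The products `x ^ a * e i` are linearly independent over the constants, if the `e i` are
linearly independent over `k(x)` and `x` is transcendental. -/
theorem h2ld_li_monomials (x : LaurentSeries k) (hx : Transcendental k x) {n : ℕ}
    (e : Fin n → LaurentSeries k) (he : LinearIndependent (adjoin k {x}) e) (D : ℕ) :
    LinearIndependent k (fun p : Fin n × Fin D => x ^ (p.2 : ℕ) * e p.1) := by
  classical
  rw [Fintype.linearIndependent_iff]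
  intro g hg
  have hmem : ∀ i, (∑ a : Fin D, g (i, a) • x ^ (a : ℕ)) ∈ adjoin k {x} := by
    intro i
    refine sum_mem fun a _ => ?_
    rw [← algebraMap_mul_eq_smul]
    exact mul_mem (IntermediateField.algebraMap_mem _ _) (pow_mem (mem_adjoin_simple_self k x) _)
  rw [Fintype.linearIndependent_iff] at he
  have h0 : ∑ i, (⟨_, hmem i⟩ : adjoin k {x}) • e i = 0 := by
    rw [← hg, Fintype.sum_prod_type]
    refine Finset.sum_congr rfl fun i _ => ?_
    rw [Algebra.smul_def]
    show (∑ a : Fin D, g (i, a) • x ^ (a : ℕ)) * e i = ∑ a : Fin D, g (i, a) • (x ^ (a : ℕ) * e i)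
    rw [Finset.sum_mul]
    refine Finset.sum_congr rfl fun a _ => ?_
    rw [smul_mul_assoc']
  intro p
  have h1 := he _ h0 p.1
  have h2 : ∑ a : Fin D, g (p.1, a) • x ^ (a : ℕ) = 0 := congrArg Subtype.val h1
  have h3 := linearIndependent_pow_of_transcendental hx D
  rw [Fintype.linearIndependent_iff] at h3
  exact h3 (fun a => g (p.1, a)) h2 p.2

/-- Every element of `k(x)` is a quotient of polynomial expressions with non-zero denominator. -/
theorem h2ld_exists_frac (x : LaurentSeries k) (c : adjoin k {x}) :
    ∃ r s : k[X], aeval x s ≠ 0 ∧ (c : LaurentSeries k) * aeval x s = aeval x r := by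
  obtain ⟨r, s, h⟩ := (mem_adjoin_simple_iff k (c : LaurentSeries k)).1 c.2
  by_cases hs : aeval x s = 0
  · refine ⟨0, 1, by simp, ?_⟩
    rw [h, hs, div_zero, zero_mul, map_zero]
  · exact ⟨r, s, hs, by rw [h, div_mul_cancel₀ _ hs]⟩

/-- **Linear disjointness over the `x`-line**. -/
theorem h2ld_core (φ : k →+* k') (x : LaurentSeries k) (hx : Transcendental k x) {n : ℕ}
    (e : Fin n → LaurentSeries k) (he : LinearIndependent (adjoin k {x}) e) :
    LinearIndependent (adjoin k' {coeffMap φ x}) (fun i => coeffMap φ (e i)) := by
  classical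
  rw [Fintype.linearIndependent_iff]
  intro c hc
  choose r s hs hrs using fun i => h2ld_exists_frac (coeffMap φ x) (c i)
  -- common denominator
  set S : LaurentSeries k' := ∏ i, aeval (coeffMap φ x) (s i) with hS
  have hS0 : S ≠ 0 := Finset.prod_ne_zero_iff.2 fun i _ => hs i
  set P : Fin n → k'[X] := fun i => r i * ∏ l ∈ Finset.univ.erase i, s l with hP
  have hPc : ∀ i, aeval (coeffMap φ x) (P i) = (c i : LaurentSeries k') * S := by
    intro i
    rw [hP, hS]
    simp only [map_mul, map_prod]
    rw [← hrs i, mul_assoc, Finset.mul_prod_erase Finset.univ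
      (fun l => aeval (coeffMap φ x) (s l)) (Finset.mem_univ i)]
  -- a common degree bound
  obtain ⟨D, hD⟩ : ∃ D : ℕ, ∀ i, (P i).natDegree < D :=
    ⟨(Finset.univ.sup fun i => (P i).natDegree) + 1, fun i =>
      Nat.lt_succ_of_le (Finset.le_sup (f := fun i => (P i).natDegree) (Finset.mem_univ i))⟩
  have hli := linearIndependent_coeffMap φ _ (h2ld_li_monomials x hx e he D)
  rw [Fintype.linearIndependent_iff] at hli
  have h0 : ∑ p : Fin n × Fin D, (P p.1).coeff (p.2 : ℕ) •
      coeffMap φ (x ^ (p.2 : ℕ) * e p.1) = 0 := by
    rw [Fintype.sum_prod_type]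
    have h1 : ∀ i, ∑ a : Fin D, (P i).coeff (a : ℕ) • coeffMap φ (x ^ (a : ℕ) * e i)
        = S * ((c i : LaurentSeries k') * coeffMap φ (e i)) := by
      intro i
      have h2 := aeval_eq_sum_smul (coeffMap φ x) (P i) (hD i)
      rw [hPc i] at h2
      rw [← mul_assoc, mul_comm S, h2, Finset.sum_mul]
      refine Finset.sum_congr rfl fun a _ => ?_
      rw [map_mul, map_pow, smul_mul_assoc']
    rw [Finset.sum_congr rfl fun i _ => h1 i, ← Finset.mul_sum]
    have h3 : ∑ i, (c i : LaurentSeries k') * coeffMap φ (e i) = 0 := by
      rw [← hc]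
      refine Finset.sum_congr rfl fun i _ => ?_
      rw [Algebra.smul_def]
      rfl
    rw [h3, mul_zero]
  intro i
  have h4 : P i = 0 := by
    ext a
    rw [Polynomial.coeff_zero]
    by_cases ha : a < D
    · exact hli _ h0 (i, ⟨a, ha⟩)
    · exact Polynomial.coeff_eq_zero_of_natDegree_lt (lt_of_lt_of_le (hD i) (not_lt.1 ha))
  have h5 := hPc i
  rw [h4, map_zero] at h5
  have h6 : (c i : LaurentSeries k') = 0 := by
    rcases mul_eq_zero.1 h5.symm with h | h
    · exact h
    · exact absurd h hS0
  exact Subtype.ext h6

end Core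

section Bridge

variable {k E : Type*} [Field k] [Field E] [Algebra k E]

theorem h2ld_map_adjoin_val (L : IntermediateField k E) (x : L) :
    (IntermediateField.adjoin k {x}).map L.val = IntermediateField.adjoin k {(x : E)} := by
  rw [IntermediateField.adjoin_map, Set.image_singleton]
  rfl

theorem h2ld_exists_of_mem_adjoin (L : IntermediateField k E) (x : L) (b : E)
    (hb : b ∈ IntermediateField.adjoin k {(x : E)}) :
    ∃ a : L, a ∈ IntermediateField.adjoin k {x} ∧ (a : E) = b := by
  rw [← h2ld_map_adjoin_val L x] at hb
  obtain ⟨a, ha, rfl⟩ := hb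
  exact ⟨a, ha, rfl⟩

/-- Linear independence over `k(x)` inside the field `L` gives linear independence over `k(x)`
inside the ambient field `E`. -/
theorem h2ld_li_coe {ι : Type*} [Fintype ι] (L : IntermediateField k E) (x : L) (v : ι → L)
    (hv : LinearIndependent (IntermediateField.adjoin k {x}) v) :
    LinearIndependent (IntermediateField.adjoin k {(x : E)}) (fun i => (v i : E)) := by
  rw [Fintype.linearIndependent_iff] at hv ⊢
  intro g hg i
  choose a ha hag using fun i => h2ld_exists_of_mem_adjoin L x (g i) (g i).2
  have h0 : ∑ i, (⟨a i, ha i⟩ : IntermediateField.adjoin k {x}) • v i = 0 := by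
    apply Subtype.ext
    rw [IntermediateField.coe_sum, IntermediateField.coe_zero, ← hg]
    refine Finset.sum_congr rfl fun i _ => ?_
    rw [Algebra.smul_def, Algebra.smul_def, IntermediateField.coe_mul]
    congr 1
    exact hag i
  have h1 := hv (fun i => ⟨a i, ha i⟩) h0 i
  have h2 : a i = 0 := congrArg Subtype.val h1
  apply Subtype.ext
  rw [← hag i, h2]
  rfl

end Bridge

/-- **(LD)** of [QEPO] (helper1 #960): a `k(j)`-basis of `F̄_k = k(j_d : d ∣ M)` stays linearly
independent over `k'(j)` inside `k'((q))` after extension of the constants. -/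
theorem degC_mono {k k' : Type} [Field k] [Field k'] [Algebra k k'] (M : ℕ) [NeZero M]
    (hfin : FiniteDimensional (adjoin k {jbFull k M}) (modularFunctionFieldFullC k M)) :
    ∃ (n : ℕ) (e : Fin n → LaurentSeries k), n = degC k M ∧
      (∀ i, e i ∈ modularFunctionFieldFullC k M) ∧
      LinearIndependent (adjoin k' {jqModC k'}) (fun i => coeffMap (algebraMap k k') (e i)) := by
  have hfin' := hfin
  haveI : Module.Free (adjoin k {jbFull k M}) (modularFunctionFieldFullC k M) :=
    Module.Free.of_divisionRing _ _
  let b := Module.finBasis (adjoin k {jbFull k M}) (modularFunctionFieldFullC k M)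
  refine ⟨Module.finrank (adjoin k {jbFull k M}) (modularFunctionFieldFullC k M),
    fun i => (b i : LaurentSeries k), rfl, fun i => (b i).2, ?_⟩
  have h1 : LinearIndependent (adjoin k {jqModC k}) (fun i => (b i : LaurentSeries k)) :=
    h2ld_li_coe (modularFunctionFieldFullC k M) (jbFull k M) _ b.linearIndependent
  have h2 := h2ld_core (algebraMap k k') (jqModC k) (h2ld_transcendental_jq k) _ h1
  rwa [coeffMap_jqModC] at h2

end Fermat.Agent.S18x.Qepo.H2
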