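import Mathlib
import Fermat.Agent.S18x.Qepo.H2_LD

/-!
# S18, package QEPO, leaf (BC) (helper2): the degree of the modular function field over the
`j`-line does not grow under extension of the constants

If `F_k = k(j_d : d ∣ M)` is finite over `k(j)`, then for every field extension `k → k'` the field
`F_{k'}` is finite over `k'(j)` and `degC k' M ≤ degC k M` (the `k'(j)`-span of the image of a
`k(j)`-basis of `F_k` is a subring of `k'((q))`, finite over the field `k'(j)`, hence a field; it
contains `k'` and all `j_d`).  With `(LD)`: `degC k' M = degC k M`.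
-/

set_option autoImplicit false
set_option linter.unusedSectionVars false
set_option linter.style.haveILetI false
set_option synthInstance.maxHeartbeats 400000
set_option maxHeartbeats 1000000

open ModularCurve IntermediateField Polynomial

noncomputable section

namespace Fermat.Agent.S18x.Qepo.H2

open Fermat.Agent.S28.Asm Fermat.Agent.S24.LD

section Span

variable {k k' : Type*} [Field k] [Field k'] (φ : k →+* k')

theorem h2bc_aeval_mem (x : LaurentSeries k') (P : k'[X]) : aeval x P ∈ adjoin k' {x} :=
  (mem_adjoin_simple_iff k' _).2 ⟨P, 1, by simp⟩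

/-- `coeffMap φ` maps `k(x)` into `k'(coeffMap φ x)`. -/
theorem h2bc_coeffMap_mem_adjoin (x c : LaurentSeries k) (hc : c ∈ adjoin k {x}) :
    coeffMap φ c ∈ adjoin k' {coeffMap φ x} := by
  obtain ⟨r, s, rfl⟩ := (mem_adjoin_simple_iff k c).1 hc
  rw [map_div₀, coeffMap_aeval, coeffMap_aeval]
  exact div_mem (h2bc_aeval_mem _ _) (h2bc_aeval_mem _ _)

variable (x : LaurentSeries k) {n : ℕ} (b : Fin n → LaurentSeries k)

/-- The `k'(x')`-span of the images of the `b i`. -/
def h2bcSpan : Submodule (adjoin k' {coeffMap φ x}) (LaurentSeries k') :=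
  Submodule.span (adjoin k' {coeffMap φ x}) (Set.range fun i => coeffMap φ (b i))

theorem h2bc_mem_span_of_eq_sum (y : LaurentSeries k) (c : Fin n → adjoin k {x})
    (hy : y = ∑ i, (c i : LaurentSeries k) * b i) : coeffMap φ y ∈ h2bcSpan φ x b := by
  rw [hy, map_sum]
  refine Submodule.sum_mem _ fun i _ => ?_
  rw [map_mul]
  have h1 : coeffMap φ (c i : LaurentSeries k) * coeffMap φ (b i)
      = (⟨coeffMap φ (c i : LaurentSeries k), h2bc_coeffMap_mem_adjoin φ x _ (c i).2⟩ :
          adjoin k' {coeffMap φ x}) • coeffMap φ (b i) := by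
    rw [Algebra.smul_def]
    rfl
  rw [h1]
  exact Submodule.smul_mem _ _ (Submodule.subset_span ⟨i, rfl⟩)

theorem h2bc_mem_span (F : IntermediateField k (LaurentSeries k))
    (hspan : ∀ y ∈ F, ∃ c : Fin n → adjoin k {x}, y = ∑ i, (c i : LaurentSeries k) * b i)
    (y : LaurentSeries k) (hy : y ∈ F) : coeffMap φ y ∈ h2bcSpan φ x b := by
  obtain ⟨c, hc⟩ := hspan y hy
  exact h2bc_mem_span_of_eq_sum φ x b y c hc

theorem h2bc_one_mem (F : IntermediateField k (LaurentSeries k))
    (hspan : ∀ y ∈ F, ∃ c : Fin n → adjoin k {x}, y = ∑ i, (c i : LaurentSeries k) * b i) :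
    (1 : LaurentSeries k') ∈ h2bcSpan φ x b := by
  have := h2bc_mem_span φ x b F hspan 1 (one_mem F)
  rwa [map_one] at this

theorem h2bc_mul_mem (F : IntermediateField k (LaurentSeries k)) (hb : ∀ i, b i ∈ F)
    (hspan : ∀ y ∈ F, ∃ c : Fin n → adjoin k {x}, y = ∑ i, (c i : LaurentSeries k) * b i)
    (s t : LaurentSeries k') (hs : s ∈ h2bcSpan φ x b)
    (ht : t ∈ h2bcSpan φ x b) : s * t ∈ h2bcSpan φ x b := by
  have h1 : h2bcSpan φ x b * h2bcSpan φ x b ≤ h2bcSpan φ x b := by
    unfold h2bcSpan
    rw [Submodule.span_mul_span, Submodule.span_le]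
    rintro _ ⟨_, ⟨i, rfl⟩, _, ⟨l, rfl⟩, rfl⟩
    show coeffMap φ (b i) * coeffMap φ (b l) ∈ h2bcSpan φ x b
    rw [← map_mul]
    exact h2bc_mem_span φ x b F hspan _ (mul_mem (hb i) (hb l))
  exact h1 (Submodule.mul_mem_mul hs ht)

/-- The span as a subalgebra over `k'(x')`. -/
def h2bcAlg (F : IntermediateField k (LaurentSeries k)) (hb : ∀ i, b i ∈ F)
    (hspan : ∀ y ∈ F, ∃ c : Fin n → adjoin k {x}, y = ∑ i, (c i : LaurentSeries k) * b i) :
    Subalgebra (adjoin k' {coeffMap φ x}) (LaurentSeries k') :=
  (h2bcSpan φ x b).toSubalgebra (h2bc_one_mem φ x b F hspan)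
    (fun s t hs ht => h2bc_mul_mem φ x b F hb hspan s t hs ht)

theorem h2bc_inv_mem (F : IntermediateField k (LaurentSeries k)) (hb : ∀ i, b i ∈ F)
    (hspan : ∀ y ∈ F, ∃ c : Fin n → adjoin k {x}, y = ∑ i, (c i : LaurentSeries k) * b i)
    (y : LaurentSeries k') (hy : y ∈ h2bcSpan φ x b) :
    y⁻¹ ∈ h2bcSpan φ x b := by
  have hfg : (h2bcAlg φ x b F hb hspan).toSubmodule.FG := by
    show (h2bcSpan φ x b).FG
    exact Submodule.fg_span (Set.finite_range _)
  have hint : IsIntegral (adjoin k' {coeffMap φ x}) y :=
    IsIntegral.of_mem_of_fg (h2bcAlg φ x b F hb hspan) hfg y hy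
  exact (h2bcAlg φ x b F hb hspan).inv_mem_of_algebraic (x := ⟨y, hy⟩) hint.isAlgebraic

/-- The span as an intermediate field over `k'`. -/
def h2bcField (F : IntermediateField k (LaurentSeries k)) (hb : ∀ i, b i ∈ F)
    (hspan : ∀ y ∈ F, ∃ c : Fin n → adjoin k {x}, y = ∑ i, (c i : LaurentSeries k) * b i) :
    IntermediateField k' (LaurentSeries k') :=
  ((h2bcAlg φ x b F hb hspan).restrictScalars k').toIntermediateField
    (fun y hy => h2bc_inv_mem φ x b F hb hspan y hy)

/-- A field generated over `k'` by images of elements of `F` lies in the span. -/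
theorem h2bc_adjoin_le (F : IntermediateField k (LaurentSeries k)) (hb : ∀ i, b i ∈ F)
    (hspan : ∀ y ∈ F, ∃ c : Fin n → adjoin k {x}, y = ∑ i, (c i : LaurentSeries k) * b i)
    (G : Set (LaurentSeries k'))
    (hG : ∀ g ∈ G, ∃ y ∈ F, coeffMap φ y = g) (z : LaurentSeries k')
    (hz : z ∈ adjoin k' G) : z ∈ h2bcSpan φ x b := by
  have h1 : adjoin k' G ≤ h2bcField φ x b F hb hspan := by
    rw [adjoin_le_iff]
    intro g hg
    obtain ⟨y, hy, rfl⟩ := hG g hg
    exact h2bc_mem_span φ x b F hspan y hy
  exact h1 hz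

/-- Linearly independent families in the span have at most `n` members. -/
theorem h2bc_card_le {ι : Type*} [Fintype ι] (v : ι → LaurentSeries k')
    (hv : ∀ i, v i ∈ h2bcSpan φ x b)
    (hli : LinearIndependent (adjoin k' {coeffMap φ x}) v) : Fintype.card ι ≤ n := by
  haveI : Module.Finite (adjoin k' {coeffMap φ x}) (h2bcSpan φ x b) :=
    Module.Finite.span_of_finite _ (Set.finite_range _)
  have h1 : LinearIndependent (adjoin k' {coeffMap φ x})
      (fun i => (⟨v i, hv i⟩ : h2bcSpan φ x b)) :=
    LinearIndependent.of_comp (h2bcSpan φ x b).subtype hli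
  have h2 := h1.fintype_card_le_finrank
  have h3 : Module.finrank (adjoin k' {coeffMap φ x}) (h2bcSpan φ x b) ≤ n := by
    have := finrank_range_le_card (R := adjoin k' {coeffMap φ x}) (fun i => coeffMap φ (b i))
    rwa [Fintype.card_fin] at this
  exact h2.trans h3

end Span

section Bridge2

variable {k E : Type*} [Field k] [Field E] [Algebra k E]

theorem h2bc_coe_mem_adjoin (L : IntermediateField k E) (x : L) (a : L)
    (ha : a ∈ IntermediateField.adjoin k {x}) :
    (a : E) ∈ IntermediateField.adjoin k {(x : E)} := by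
  rw [← h2ld_map_adjoin_val L x]
  exact ⟨a, ha, rfl⟩

/-- Linear independence over `k(x)` inside the ambient field `E` gives linear independence over
`k(x)` inside the field `L`. -/
theorem h2ld_li_of_coe {ι : Type*} [Fintype ι] (L : IntermediateField k E) (x : L) (v : ι → L)
    (hv : LinearIndependent (IntermediateField.adjoin k {(x : E)}) (fun i => (v i : E))) :
    LinearIndependent (IntermediateField.adjoin k {x}) v := by
  rw [Fintype.linearIndependent_iff] at hv ⊢
  intro g hg i
  have h0 : ∑ i, (⟨(((g i : IntermediateField.adjoin k {x}) : L) : E),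
      h2bc_coe_mem_adjoin L x _ (g i).2⟩ : IntermediateField.adjoin k {(x : E)}) • (v i : E)
        = 0 := by
    have h := congrArg (fun z : L => (z : E)) hg
    simp only [IntermediateField.coe_sum, IntermediateField.coe_zero] at h
    rw [← h]
    refine Finset.sum_congr rfl fun i _ => ?_
    rw [Algebra.smul_def, Algebra.smul_def, IntermediateField.coe_mul]
    rfl
  have h1 := hv _ h0 i
  have h2 : (((g i : IntermediateField.adjoin k {x}) : L) : E) = 0 := congrArg Subtype.val h1
  apply Subtype.ext
  apply Subtype.ext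
  exact h2

end Bridge2

section Degree

/-- If every family in `F_M(k)` which is linearly independent over `k(j)` inside `k((q))` has at
most `n` members, then `F_M(k)` is finite over `k(j)` of degree at most `n`. -/
theorem h2bc_findim_of_card_le (k : Type) [Field k] (N : ℕ) [NeZero N] (n : ℕ)
    (h : ∀ s : Finset ↥(modularFunctionFieldFullC k N),
      LinearIndependent (adjoin k {jqModC k})
        (fun i : s => ((i : ↥(modularFunctionFieldFullC k N)) : LaurentSeries k)) → s.card ≤ n) :
    FiniteDimensional (adjoin k {jbFull k N}) ↥(modularFunctionFieldFullC k N) ∧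
      degC k N ≤ n := by
  have key : ∀ s : Finset ↥(modularFunctionFieldFullC k N),
      LinearIndependent (adjoin k {jbFull k N})
        (fun i : s => (i : ↥(modularFunctionFieldFullC k N))) → s.card ≤ n :=
    fun s hs => h s (h2ld_li_coe (modularFunctionFieldFullC k N) (jbFull k N) _ hs)
  have hrank := rank_le key
  haveI : Module.Free (adjoin k {jbFull k N})
      ↥(modularFunctionFieldFullC k N) := Module.Free.of_divisionRing _ _
  exact ⟨Module.rank_lt_aleph0_iff.1 (lt_of_le_of_lt hrank (Cardinal.natCast_lt_aleph0)),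
    Module.finrank_le_of_rank_le hrank⟩

/-- `coeffMap φ` maps `F_M(k)` into `F_M(k')`. -/
theorem h2bc_coeffMap_mem_full {k k' : Type*} [Field k] [Field k'] (φ : k →+* k') (M : ℕ)
    [NeZero M] (y : LaurentSeries k) (hy : y ∈ modularFunctionFieldFullC k M) :
    coeffMap φ y ∈ modularFunctionFieldFullC k' M := by
  have hy' : y ∈ Subfield.closure (Set.range (algebraMap k (LaurentSeries k)) ∪
      divisorExpansionsC k M) := hy
  clear hy
  induction hy' using Subfield.closure_induction with
  | mem z hz =>
    rcases hz with ⟨a, rfl⟩ | ⟨d, hd, hdM, rfl⟩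
    · rw [coeffMap_algebraMap']
      exact IntermediateField.algebraMap_mem _ _
    · haveI := hd
      rw [coeffMap_qExpand, coeffMap_jqModC]
      exact jqModCd_mem_full k' M hdM
  | one => rw [map_one]; exact one_mem _
  | add x y _ _ hx hy => rw [map_add]; exact add_mem hx hy
  | neg x _ hx => rw [map_neg]; exact neg_mem hx
  | inv x _ hx => rw [map_inv₀]; exact inv_mem hx
  | mul x y _ _ hx hy => rw [map_mul]; exact mul_mem hx hy

/-- **(BC), general form**: the degree over the `j`-line does not grow under extension of the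
constants. -/
theorem degC_base_change_gen {k k' : Type} [Field k] [Field k'] [Algebra k k'] (M : ℕ) [NeZero M]
    (hfin : FiniteDimensional (adjoin k {jbFull k M}) (modularFunctionFieldFullC k M)) :
    FiniteDimensional (adjoin k' {jbFull k' M}) (modularFunctionFieldFullC k' M) ∧
      degC k' M ≤ degC k M := by
  classical
  have hfin' := hfin
  haveI : Module.Free (adjoin k {jbFull k M}) (modularFunctionFieldFullC k M) :=
    Module.Free.of_divisionRing _ _
  let B := Module.finBasis (adjoin k {jbFull k M}) (modularFunctionFieldFullC k M)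
  set b : Fin (Module.finrank (adjoin k {jbFull k M}) (modularFunctionFieldFullC k M)) →
    LaurentSeries k := fun i => (B i : LaurentSeries k) with hbdef
  have hb : ∀ i, b i ∈ modularFunctionFieldFullC k M := fun i => (B i).2
  have hspan : ∀ y ∈ modularFunctionFieldFullC k M,
      ∃ c : Fin (Module.finrank (adjoin k {jbFull k M}) (modularFunctionFieldFullC k M)) →
        adjoin k {jqModC k}, y = ∑ i, (c i : LaurentSeries k) * b i := by
    intro y hy
    refine ⟨fun i => ⟨((B.repr ⟨y, hy⟩ i : adjoin k {jbFull k M}) :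
        modularFunctionFieldFullC k M), ?_⟩, ?_⟩
    · have := (B.repr ⟨y, hy⟩ i).2
      have h2 := h2ld_map_adjoin_val (modularFunctionFieldFullC k M) (jbFull k M)
      have h3 : (((B.repr ⟨y, hy⟩ i : adjoin k {jbFull k M}) :
          modularFunctionFieldFullC k M) : LaurentSeries k) ∈
          (adjoin k {jbFull k M}).map (modularFunctionFieldFullC k M).val :=
        ⟨_, this, rfl⟩
      rw [h2] at h3
      exact h3
    · have h1 := B.sum_repr ⟨y, hy⟩
      have h2 := congrArg (fun z : modularFunctionFieldFullC k M => (z : LaurentSeries k)) h1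
      simp only [IntermediateField.coe_sum] at h2
      refine h2.symm.trans ?_
      refine Finset.sum_congr rfl fun i _ => ?_
      rw [Algebra.smul_def, IntermediateField.coe_mul]
      rfl
  refine h2bc_findim_of_card_le k' M
    (Module.finrank (adjoin k {jbFull k M}) (modularFunctionFieldFullC k M)) fun s hs => ?_
  have h1 : ∀ i : s, ((i : ↥(modularFunctionFieldFullC k' M)) : LaurentSeries k') ∈
      h2bcSpan (algebraMap k k') (jqModC k) b := by
    intro i
    refine h2bc_adjoin_le (algebraMap k k') (jqModC k) b (modularFunctionFieldFullC k M) hb hspan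
      (divisorExpansionsC k' M) ?_ _ (i : ↥(modularFunctionFieldFullC k' M)).2
    rintro g ⟨d, hd, hdM, rfl⟩
    haveI := hd
    refine ⟨qExpand k d (jqModC k), jqModCd_mem_full k M hdM, ?_⟩
    rw [coeffMap_qExpand, coeffMap_jqModC]
  have h2 : LinearIndependent (adjoin k' {coeffMap (algebraMap k k') (jqModC k)})
      (fun i : s => ((i : ↥(modularFunctionFieldFullC k' M)) : LaurentSeries k')) := by
    rw [coeffMap_jqModC]
    exact hs
  have h3 := h2bc_card_le (algebraMap k k') (jqModC k) b _ h1 h2
  rwa [Fintype.card_coe] at h3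

/-- The degree over the `j`-line is invariant under extension of the constants. -/
theorem degC_eq_of_algebra {k k' : Type} [Field k] [Field k'] [Algebra k k'] (M : ℕ) [NeZero M]
    (hfin : FiniteDimensional (adjoin k {jbFull k M}) (modularFunctionFieldFullC k M)) :
    degC k' M = degC k M := by
  obtain ⟨hfin', hle⟩ := degC_base_change_gen (k := k) (k' := k') M hfin
  refine le_antisymm hle ?_
  obtain ⟨n, e, hn, he, hli⟩ := degC_mono (k := k) (k' := k') M hfin
  have hmem : ∀ i, coeffMap (algebraMap k k') (e i) ∈ modularFunctionFieldFullC k' M :=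
    fun i => h2bc_coeffMap_mem_full (algebraMap k k') M _ (he i)
  have h2 : LinearIndependent (adjoin k' {jbFull k' M})
      (fun i => (⟨coeffMap (algebraMap k k') (e i), hmem i⟩ : modularFunctionFieldFullC k' M)) :=
    h2ld_li_of_coe (modularFunctionFieldFullC k' M) (jbFull k' M) _ hli
  haveI := hfin'
  have h3 := h2.fintype_card_le_finrank
  rw [Fintype.card_fin] at h3
  rw [← hn]
  exact h3

/-- Finiteness of `k(j_d : d ∣ M)` over `k(j)`, stated for a general field `k` (generic
instances). -/
def H2FinDim (k : Type) [Field k] (M : ℕ) [NeZero M] : Prop :=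
  FiniteDimensional (adjoin k {jbFull k M}) ↥(modularFunctionFieldFullC k M)

/-- Finiteness over `ℚ(x)` does not depend on the `ℚ`-algebra structure used to form `ℚ(x)`. -/
theorem h2bc_findim_congr {L : Type*} [Field L] (a1 a2 : Algebra ℚ L) (x : L) :
    FiniteDimensional (@IntermediateField.adjoin ℚ _ L _ a1 {x}) L ↔
      FiniteDimensional (@IntermediateField.adjoin ℚ _ L _ a2 {x}) L := by
  have h : a1 = a2 := Subsingleton.elim _ _
  subst h
  exact Iff.rfl

/-- `StDEG0` gives the generic-instance finiteness over `ℚ`. -/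
theorem h2bc_findim_rat (M : ℕ) [NeZero M] (h0 : Fermat.Agent.S28.Asm.StDEG0 M) :
    H2FinDim ℚ M := by
  unfold H2FinDim
  exact (h2bc_findim_congr _ _ _).1 h0.1

/-- **(BC)** of [QEPO] (helper1 #960), verbatim. -/
theorem degC_base_change (K : Type) [Field K] [CharZero K] (M : ℕ) [NeZero M]
    (h0 : Fermat.Agent.S28.Asm.StDEG0 M) :
    FiniteDimensional (adjoin K {jbFull K M}) (modularFunctionFieldFullC K M) ∧
      degC K M ≤ degC ℚ M :=
  degC_base_change_gen (k := ℚ) (k' := K) M (h2bc_findim_rat M h0)

/-- The degree over the `j`-line in characteristic `0` is the one over `ℚ`. -/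
theorem degC_eq_rat (K : Type) [Field K] [CharZero K] (M : ℕ) [NeZero M]
    (h0 : Fermat.Agent.S28.Asm.StDEG0 M) : degC K M = degC ℚ M :=
  degC_eq_of_algebra (k := ℚ) (k' := K) M (h2bc_findim_rat M h0)

end Degree

end Fermat.Agent.S18x.Qepo.H2
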