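import Mathlib
import Fermat.Agent.S18x.Qepo.H1_Gauss
import Fermat.Agent.S18x.Qepo.H2_BC
import Fermat.Agent.S18x.E.H12_Lift
import Fermat.Agent.S28.Asm.H27_Final
import Fermat.Agent.S28.Alg.H29_Indep

/-!
# S18, package QEPO (helper1): the basis of `F_M ∩ V` over `K(j) ∩ V`, over a general DVR

`K` a field of characteristic `0`, `O : ValuationSubring K` a discrete valuation ring with
uniformiser `π` and residue field `κ` of characteristic `ℓ`, `ℓ ∤ M`.
`F_K = modularFunctionFieldFullC K M`, `F̄ = modularFunctionFieldFullC κ M`,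
`V = gaussRing O`.

* `degC_zmod`, `degC_kappa`, `degC_char_zero` : `[F̄ : κ(j̄)] = ψ(M) = [F_K : K(j)]`  (Q4);
* `laurentBaseChange_le_full`, `exists_lift` : every element of `F̄` is the reduction of an
  element of `O((q)) ∩ F_K`  (helper12's LIFT in the spelling of `modularFunctionFieldFullC`);
* `exists_basis` : a family `y_1, …, y_n ∈ O((q)) ∩ F_K`, `n = ψ(M)`, which is a `K(j)`-basis of
  `F_K`, whose reductions are a `κ(j̄)`-basis of `F̄`, and such that the coordinates of every
  element of `F_K ∩ V` lie in `K(j) ∩ V`;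
* `gaussRed_mem_full` : `red (F_K ∩ V) ⊆ F̄`  (Q5).
-/

set_option autoImplicit false
set_option linter.unusedSectionVars false
set_option linter.style.haveILetI false

open ModularCurve Polynomial

noncomputable section

namespace Fermat.Agent.S18x.Qepo

open Fermat.Agent.S18x.Dict.H20 Fermat.Agent.S28.Mod.PolyJ Fermat.Agent.S28.Alg
  Fermat.Agent.S28.Asm

/-! ### The degrees -/

/-- `[F̄ : 𝔽_ℓ(j̄)] = ψ(M)` for `ℓ ∤ M` (S28). -/
theorem degC_zmod (M : ℕ) [NeZero M] (ℓ : ℕ) [Fact ℓ.Prime] (hℓM : ¬ ℓ ∣ M) :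
    FiniteDimensional (IntermediateField.adjoin (ZMod ℓ) {jbFull (ZMod ℓ) M})
      ↥(modularFunctionFieldFullC (ZMod ℓ) M) ∧ degC (ZMod ℓ) M = psi M := by
  obtain ⟨hfin, hle⟩ := Fermat.Agent.S28.Asm.H27.stQEPC_DEGU M ℓ
    (Fermat.Agent.S28.Mod.H23.stDEG0All M)
  have hge : psi M ≤ degC (ZMod ℓ) M :=
    Fermat.Agent.S28.Asm.H27.stDEG_of_degu Fermat.Agent.S28.Asm.H27.stQEPC_DEGU M ℓ hℓM
  exact ⟨hfin, le_antisymm hle hge⟩

/-- `[F̄ : κ(j̄)] = ψ(M)` for every field `κ` of characteristic `ℓ ∤ M`. -/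
theorem degC_kappa (κ : Type) [Field κ] (M : ℕ) [NeZero M] (ℓ : ℕ) [Fact ℓ.Prime]
    [CharP κ ℓ] (hℓM : ¬ ℓ ∣ M) :
    FiniteDimensional (IntermediateField.adjoin κ {jbFull κ M})
      ↥(modularFunctionFieldFullC κ M) ∧ degC κ M = psi M := by
  letI : Algebra (ZMod ℓ) κ := ZMod.algebra κ ℓ
  obtain ⟨hfin, hdeg⟩ := degC_zmod M ℓ hℓM
  refine ⟨(H2.degC_base_change_gen (k := ZMod ℓ) (k' := κ) M hfin).1, ?_⟩
  rw [H2.degC_eq_of_algebra (k := ZMod ℓ) (k' := κ) M hfin, hdeg]

/-- `[F_K : K(j)] = ψ(M)` for every field `K` of characteristic `0`. -/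
theorem degC_char_zero (K : Type) [Field K] [CharZero K] (M : ℕ) [NeZero M] :
    FiniteDimensional (IntermediateField.adjoin K {jbFull K M})
      ↥(modularFunctionFieldFullC K M) ∧ degC K M = psi M := by
  have h0 := Fermat.Agent.S28.Mod.H23.stDEG0All M
  refine ⟨(H2.degC_base_change K M h0).1, ?_⟩
  rw [H2.degC_eq_rat K M h0]
  exact (Fermat.Agent.S28.Mod.H23.h23_deg0_eq M).2

/-! ### The lift -/

/-- The base change of the rational modular function field lies in `K(j_d : d ∣ M)`. -/
theorem laurentBaseChange_le_full (K : Type) [Field K] [Algebra ℚ K] (M : ℕ) [NeZero M] :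
    laurentBaseChange K (modularFunctionFieldFull M) ≤ modularFunctionFieldFullC K M := by
  rw [laurentBaseChange, IntermediateField.adjoin_le_iff]
  rintro _ ⟨y, hy, rfl⟩
  exact H2.h2bc_coeffMap_mem_full (algebraMap ℚ K) M y hy

variable {K : Type} [Field K] [CharZero K] (O : ValuationSubring K)

/-- **(LIFT)** in the spelling of `modularFunctionFieldFullC`: every element of `F̄` is the
reduction of an element of `O((q)) ∩ F_K`. -/
theorem exists_lift (M : ℕ) [NeZero M] (g : LaurentSeries (Kp O))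
    (hg : g ∈ modularFunctionFieldFullC (Kp O) M) :
    ∃ y : LaurentSeries O, gIota O y ∈ modularFunctionFieldFullC K M ∧ gRed O y = g := by
  obtain ⟨y, hy, hred⟩ := Fermat.Agent.S18x.E.H12.h12_lift (A := O) (N := M)
    (IsLocalRing.residue O) IsLocalRing.residue_surjective
    (fun a ha => (IsLocalRing.residue_ne_zero_iff_isUnit a).mp ha) g hg
  exact ⟨y, laurentBaseChange_le_full K M hy, hred⟩

/-! ### The basis -/

variable [IsDiscreteValuationRing O] (π : O) (hπ : Irreducible π)

/-- `K(j)` inside `F_K` (with the generic instances, as in `degC`). -/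
abbrev kjF (k : Type) [Field k] (M : ℕ) [NeZero M] :
    IntermediateField k ↥(modularFunctionFieldFullC k M) :=
  IntermediateField.adjoin k {jbFull k M}

include hπ

/-- **(FAM)** a family of `ψ(M)` elements of `O((q)) ∩ F_K` whose reductions lie in `F̄` and are
linearly independent over `κ(j̄)`. -/
theorem exists_family (M : ℕ) [NeZero M] (ℓ : ℕ) [Fact ℓ.Prime] [CharP (Kp O) ℓ]
    (hℓM : ¬ ℓ ∣ M) :
    ∃ (n : ℕ) (y : Fin n → LaurentSeries O), n = psi M ∧
      (∀ i, gIota O (y i) ∈ modularFunctionFieldFullC K M) ∧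
      (∀ i, gRed O (y i) ∈ modularFunctionFieldFullC (Kp O) M) ∧
      LinearIndependent (kappa (Kp O)) (fun i => gRed O (y i)) ∧
      LinearIndependent (kappa K) (fun i => gIota O (y i)) := by
  classical
  letI : Algebra (ZMod ℓ) (Kp O) := ZMod.algebra (Kp O) ℓ
  obtain ⟨hfin, hdeg⟩ := degC_zmod M ℓ hℓM
  obtain ⟨n, e, hn, he, hli⟩ := H2.degC_mono (k := ZMod ℓ) (k' := Kp O) M hfin
  have hmem : ∀ i, coeffMap (algebraMap (ZMod ℓ) (Kp O)) (e i) ∈
      modularFunctionFieldFullC (Kp O) M :=
    fun i => H2.h2bc_coeffMap_mem_full (algebraMap (ZMod ℓ) (Kp O)) M _ (he i)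
  have hlift : ∀ i, ∃ y : LaurentSeries O, gIota O y ∈ modularFunctionFieldFullC K M ∧
      gRed O y = coeffMap (algebraMap (ZMod ℓ) (Kp O)) (e i) :=
    fun i => exists_lift O M _ (hmem i)
  choose y hy hred using hlift
  have hli' : LinearIndependent (kappa (Kp O)) (fun i => gRed O (y i)) := by
    have h2 : (fun i => gRed O (y i)) =
        fun i => coeffMap (algebraMap (ZMod ℓ) (Kp O)) (e i) := funext hred
    rw [h2]
    exact hli
  refine ⟨n, y, hn.trans hdeg, hy, fun i => ?_, hli', ?_⟩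
  · rw [hred i]
    exact hmem i
  · have hx : LinearIndependent (kappa (Kp O))
        (fun i => gaussRed O
          (⟨gIota O (y i), coeffMap_subtype_mem_gaussRing O (y i)⟩ : gaussRing O)) := by
      have h2 : (fun i => gaussRed O
          (⟨gIota O (y i), coeffMap_subtype_mem_gaussRing O (y i)⟩ : gaussRing O)) =
          fun i => gRed O (y i) := funext fun i => gaussRed_coeffMap_subtype O (y i)
      rw [h2]
      exact hli'
    exact (basisHyp O π hπ).linearIndependent_of_rho
      (fun i => (⟨gIota O (y i), coeffMap_subtype_mem_gaussRing O (y i)⟩ : gaussRing O)) hx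

/-- **(BAS)** the family of `exists_family` is a `K(j)`-basis of `F_K`, and the coordinates of
the elements of `F_K ∩ V` lie in `K(j) ∩ V`. -/
theorem exists_basis (M : ℕ) [NeZero M] (ℓ : ℕ) [Fact ℓ.Prime] [CharP (Kp O) ℓ]
    (hℓM : ¬ ℓ ∣ M) :
    ∃ (n : ℕ) (y : Fin n → LaurentSeries O), n = psi M ∧
      (∀ i, gIota O (y i) ∈ modularFunctionFieldFullC K M) ∧
      (∀ i, gRed O (y i) ∈ modularFunctionFieldFullC (Kp O) M) ∧
      LinearIndependent (kappa (Kp O)) (fun i => gRed O (y i)) ∧
      LinearIndependent (kappa K) (fun i => gIota O (y i)) ∧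
      (∀ w : LaurentSeries K, w ∈ modularFunctionFieldFullC K M →
        ∃ c : Fin n → kappa K, w = ∑ i, (c i : LaurentSeries K) * gIota O (y i)) ∧
      (∀ w : LaurentSeries K, w ∈ modularFunctionFieldFullC K M → w ∈ gaussRing O →
        ∃ c : Fin n → kappa K, (∀ i, (c i : LaurentSeries K) ∈ gaussRing O) ∧
          w = ∑ i, (c i : LaurentSeries K) * gIota O (y i)) := by
  classical
  obtain ⟨n, y, hn, hy, hyb, hli, hliK⟩ := exists_family O π hπ M ℓ hℓM
  obtain ⟨hfinK, hdegK⟩ := degC_char_zero K M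
  haveI : FiniteDimensional (kjF K M) ↥(modularFunctionFieldFullC K M) := hfinK
  -- the family inside `F_K`
  set v : Fin n → ↥(modularFunctionFieldFullC K M) := fun i => ⟨gIota O (y i), hy i⟩ with hv
  have hliF : LinearIndependent (kjF K M) v :=
    H2.h2ld_li_of_coe (modularFunctionFieldFullC K M) (jbFull K M) v hliK
  have hcard : Fintype.card (Fin n) = Module.finrank (kjF K M)
      ↥(modularFunctionFieldFullC K M) := by
    rw [Fintype.card_fin, hn, ← hdegK]
    rfl
  have hspan := hliF.span_eq_top_of_card_eq_finrank' hcard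
  have hcoord : ∀ w : LaurentSeries K, w ∈ modularFunctionFieldFullC K M →
      ∃ c : Fin n → kappa K, w = ∑ i, (c i : LaurentSeries K) * gIota O (y i) := by
    intro w hw
    have hz : (⟨w, hw⟩ : ↥(modularFunctionFieldFullC K M)) ∈
        Submodule.span (kjF K M) (Set.range v) := by
      rw [hspan]
      exact Submodule.mem_top
    obtain ⟨g, hg⟩ := (Submodule.mem_span_range_iff_exists_fun _).mp hz
    refine ⟨fun i => Fermat.Agent.S28.Alg.H29.h29_toAdj (modularFunctionFieldFullC K M)
      (jbFull K M) (g i), ?_⟩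
    have h4 := congrArg ((modularFunctionFieldFullC K M).val :
      ↥(modularFunctionFieldFullC K M) → LaurentSeries K) hg
    rw [map_sum] at h4
    exact h4.symm
  refine ⟨n, y, hn, hy, hyb, hli, hliK, hcoord, ?_⟩
  intro w hw hwV
  obtain ⟨c, hc⟩ := hcoord w hw
  refine ⟨c, ?_, hc⟩
  have hx : LinearIndependent (kappa (Kp O))
      (fun i => gaussRed O
        (⟨gIota O (y i), coeffMap_subtype_mem_gaussRing O (y i)⟩ : gaussRing O)) := by
    have h2 : (fun i => gaussRed O
        (⟨gIota O (y i), coeffMap_subtype_mem_gaussRing O (y i)⟩ : gaussRing O)) =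
        fun i => gRed O (y i) := funext fun i => gaussRed_coeffMap_subtype O (y i)
    rw [h2]
    exact hli
  have hw' : ((⟨w, hwV⟩ : gaussRing O) : LaurentSeries K) =
      ∑ i, c i • (((⟨gIota O (y i), coeffMap_subtype_mem_gaussRing O (y i)⟩ : gaussRing O)) :
        LaurentSeries K) := by
    show w = _
    exact hc
  exact (basisHyp O π hπ).coord_mem
    (fun i => (⟨gIota O (y i), coeffMap_subtype_mem_gaussRing O (y i)⟩ : gaussRing O)) hx c
    ⟨w, hwV⟩ hw'

omit hπ [CharZero K] [IsDiscreteValuationRing O] in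
theorem kappa_le_full (k : Type) [Field k] (M : ℕ) [NeZero M] :
    kappa k ≤ modularFunctionFieldFullC k M := by
  rw [kappa, IntermediateField.adjoin_le_iff, Set.singleton_subset_iff]
  exact jqModC_mem_full k M

/-- **(Q5)** `red (F_K ∩ V) ⊆ F̄`: the reduction of an element of the modular function field
lying in the Gauss ring is an element of the modular function field over the residue field. -/
theorem gaussRed_mem_full (M : ℕ) [NeZero M] (ℓ : ℕ) [Fact ℓ.Prime] [CharP (Kp O) ℓ]
    (hℓM : ¬ ℓ ∣ M) (x : gaussRing O)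
    (hx : (x : LaurentSeries K) ∈ modularFunctionFieldFullC K M) :
    gaussRed O x ∈ modularFunctionFieldFullC (Kp O) M := by
  classical
  obtain ⟨n, y, -, -, hyb, -, -, -, hcV⟩ := exists_basis O π hπ M ℓ hℓM
  obtain ⟨c, hcmem, hc⟩ := hcV (x : LaurentSeries K) hx x.2
  have hx' : x = ∑ i, (⟨(c i : LaurentSeries K), hcmem i⟩ : gaussRing O) *
      (⟨gIota O (y i), coeffMap_subtype_mem_gaussRing O (y i)⟩ : gaussRing O) := by
    apply Subtype.ext
    rw [hc]
    rw [← Subring.coe_subtype, map_sum]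
    rfl
  rw [hx', map_sum]
  refine sum_mem fun i _ => ?_
  rw [map_mul, gaussRed_coeffMap_subtype]
  exact mul_mem (kappa_le_full (Kp O) M (gaussRed_mem_kappa O π hπ _ (c i).2)) (hyb i)

end Fermat.Agent.S18x.Qepo
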