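import Mathlib
import Fermat.Agent.S18x.Qepo.H1_Basis
import Fermat.Agent.S18x.Dict.H20_GaussModular
import Fermat.Agent.S18x.Spec.H26_Charts
import Fermat.Agent.S28.Alg.H15_Sat

/-!
# S18, package QEPO (helper1): (Q3) saturation of the three charts, over a general DVR

`K` a field of characteristic `0`, `O : ValuationSubring K` a discrete valuation ring with
uniformiser `π` and residue field of characteristic `ℓ ∤ M`,
`F = ↥(modularFunctionFieldFullC K M)` with any `O`-algebra structure compatible with the one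
of `K`, `j = jbFull K M`, `V = gaussValM O M` (helper20), charts `chart O j`, `chart O j⁻¹`,
`chart₁₂ O j j⁻¹` (helper26).

* `isIntegral_ov` : every element of `F ∩ V` is a root of a monic polynomial with coefficients
  in `O_v = K(j) ∩ V` (= the localisation of `O[j]` at `(π)`, `IsLocFrac`);
* `sat_chart`, `sat_chart_inv`, `sat_chart₁₂` : `v ∈ V`, `π v ∈ B ⟹ v ∈ B` for the three
  charts `B`: VERBATIM the hypotheses `hsat₁`, `hsat₂`, `hsat₁₂` of helper26's `h26_spec`.
-/

set_option autoImplicit false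
set_option linter.unusedSectionVars false
set_option linter.style.haveILetI false

open ModularCurve Polynomial

noncomputable section

namespace Fermat.Agent.S18x.Qepo

open Fermat.Agent.S18x.Dict.H20 Fermat.Agent.S28.Mod.PolyJ Fermat.Agent.S28.Alg
  Fermat.Agent.S28.Asm Fermat.Agent.S18x.Spec.H26

variable {K : Type} [Field K] [CharZero K] (O : ValuationSubring K)
  [IsDiscreteValuationRing O] (π : O) (hπ : Irreducible π) (M : ℕ) [NeZero M]

/-- The modular function field as a type. -/
abbrev FM (K : Type) [Field K] (M : ℕ) : Type := ↥(modularFunctionFieldFullC K M)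

section Alg

variable [Algebra O (FM K M)] [IsScalarTower O K (FM K M)]

omit [CharZero K] [IsDiscreteValuationRing O] in
/-- The value of a polynomial over `O` at `j`, as a Laurent series. -/
theorem coe_aeval_jbFull (P : O[X]) :
    ((aeval (jbFull K M) P : FM K M) : LaurentSeries K) =
      aeval (jqModC K) (P.map O.subtype) := by
  have h1 : ((aeval (jbFull K M) P : FM K M) : LaurentSeries K) =
      (algebraMap (FM K M) (LaurentSeries K)) (aeval (jbFull K M) P) := rfl
  rw [h1, aeval_def, Polynomial.hom_eval₂, aeval_def, Polynomial.eval₂_map]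
  have hf : (algebraMap (FM K M) (LaurentSeries K)).comp (algebraMap O (FM K M)) =
      (algebraMap K (LaurentSeries K)).comp O.subtype := by
    refine RingHom.ext fun c => ?_
    show (algebraMap (FM K M) (LaurentSeries K)) (algebraMap O (FM K M) c) = _
    rw [IsScalarTower.algebraMap_apply O K (FM K M)]
    rfl
  rw [hf]
  rfl

omit [CharZero K] [IsDiscreteValuationRing O] in
/-- `j` is transcendental over `O`. -/
theorem injective_aeval_jbFull :
    Function.Injective (aeval (jbFull K M) : O[X] → FM K M) := by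
  rw [injective_iff_map_eq_zero]
  intro P hP
  have h := coe_aeval_jbFull O M P
  rw [hP] at h
  have h2 : aeval (jqModC K) (P.map O.subtype) = 0 := by rw [← h]; rfl
  have h3 := eq_zero_of_aeval_jqModC_eq_zero _ h2
  exact (Polynomial.map_eq_zero_iff (Subtype.val_injective)).mp h3

omit [CharZero K] [IsDiscreteValuationRing O] in
theorem jbFull_ne_zero : jbFull K M ≠ 0 := by
  intro h
  have h1 : ((jbFull K M : FM K M) : LaurentSeries K) = 0 := by rw [h]; rfl
  exact jqModC_ne_zero_of_nontrivial K h1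

include hπ

omit [CharZero K] in
/-- **Gauss inclusion** in `F`: an element of `F` lying in `K(j) ∩ V` is a fraction
`a(j) / b(j)` with `a, b ∈ O[X]`, `π ∤ b`. -/
theorem isLocFrac_of_mem {c : FM K M} (hV : (c : LaurentSeries K) ∈ gaussRing O)
    (hK : (c : LaurentSeries K) ∈ kappa K) : H18.IsLocFrac π (jbFull K M) c := by
  obtain ⟨a, b, hb, hab⟩ := exists_locFrac_of_mem O π hπ hV hK
  refine ⟨a, b, hb, ?_⟩
  apply Subtype.ext
  show (c : LaurentSeries K) * ((aeval (jbFull K M) b : FM K M) : LaurentSeries K) =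
    ((aeval (jbFull K M) a : FM K M) : LaurentSeries K)
  rw [coe_aeval_jbFull, coe_aeval_jbFull]
  exact hab

end Alg

/-- `O_v = K(j) ∩ V` as a subring of `F`. -/
def OvM : Subring (FM K M) :=
  ((kappa K).toSubring ⊓ gaussRing O).comap (algebraMap (FM K M) (LaurentSeries K))

omit [CharZero K] [IsDiscreteValuationRing O] [NeZero M] in
theorem mem_OvM_iff {c : FM K M} :
    c ∈ OvM O M ↔ (c : LaurentSeries K) ∈ kappa K ∧ (c : LaurentSeries K) ∈ gaussRing O :=
  Iff.rfl

include hπ

/-- **Integrality over `O_v`**: every element of `F ∩ V` is integral over `O_v = K(j) ∩ V`. -/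
theorem isIntegral_OvM (ℓ : ℕ) [Fact ℓ.Prime] [CharP (Kp O) ℓ] (hℓM : ¬ ℓ ∣ M)
    {x : FM K M} (hx : (x : LaurentSeries K) ∈ gaussRing O) : IsIntegral (OvM O M) x := by
  classical
  obtain ⟨n, y, -, hy, -, -, -, -, hcV⟩ := exists_basis O π hπ M ℓ hℓM
  set b : Fin n → FM K M := fun i => ⟨gIota O (y i), hy i⟩ with hb
  have hbV : ∀ i, ((b i : FM K M) : LaurentSeries K) ∈ gaussRing O :=
    fun i => coeffMap_subtype_mem_gaussRing O (y i)
  have key : ∀ w : FM K M, (w : LaurentSeries K) ∈ gaussRing O →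
      ∃ a : Fin n → OvM O M, w = ∑ j, algebraMap (OvM O M) (FM K M) (a j) * b j := by
    intro w hw
    obtain ⟨c, hcmem, hc⟩ := hcV (w : LaurentSeries K) w.2 hw
    refine ⟨fun i => ⟨⟨(c i : LaurentSeries K), kappa_le_full K M (c i).2⟩,
      ⟨(c i).2, hcmem i⟩⟩, ?_⟩
    apply Subtype.ext
    rw [hc]
    push_cast
    rfl
  refine Fermat.Agent.S28.Alg.H15.h15_isIntegral_of_span b x (key 1 (one_mem _)) ?_
  intro i
  exact key _ (mul_mem hx (hbV i))

/-- Every element of `F ∩ V` is a root of a monic polynomial over `F` whose coefficients are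
fractions `a(j) / b(j)`, `a, b ∈ O[X]`, `π ∤ b`. -/
theorem exists_monic_isLocFrac [Algebra O (FM K M)] [IsScalarTower O K (FM K M)]
    (ℓ : ℕ) [Fact ℓ.Prime] [CharP (Kp O) ℓ] (hℓM : ¬ ℓ ∣ M)
    {x : FM K M} (hx : (x : LaurentSeries K) ∈ gaussRing O) :
    ∃ P : (FM K M)[X], P.Monic ∧ P.eval x = 0 ∧
      ∀ i, H18.IsLocFrac π (jbFull K M) (P.coeff i) := by
  obtain ⟨P₀, hP₀, hroot⟩ := isIntegral_OvM O π hπ M ℓ hℓM hx
  refine ⟨P₀.map (algebraMap (OvM O M) (FM K M)), hP₀.map _, ?_, fun i => ?_⟩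
  · rw [eval_map]
    exact hroot
  · rw [coeff_map]
    exact isLocFrac_of_mem O π hπ M (P₀.coeff i).2.2 (P₀.coeff i).2.1

section Sat

variable [Algebra O (FM K M)] [IsScalarTower O K (FM K M)]
  (ℓ : ℕ) [Fact ℓ.Prime] [CharP (Kp O) ℓ]

/-- **(Q3) = (SAT₁)**: the chart `B₁` (the integral closure of `O[j]` in `F`) is saturated in
the Gauss valuation ring.  VERBATIM the hypothesis `hsat₁` of `Spec.H26.h26_spec`. -/
theorem sat_chart (hℓM : ¬ ℓ ∣ M) :
    ∀ v ∈ (gaussValM O M).toSubring,
      algebraMap O (FM K M) π * v ∈ chart O (jbFull K M) → v ∈ chart O (jbFull K M) := by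
  intro v hv hx
  obtain ⟨P, hP, hroot, hc⟩ := exists_monic_isLocFrac O π hπ M ℓ hℓM (x := v) hv
  exact H18.isIntegral_adjoin_of_isLocFrac (injective_aeval_jbFull O M)
    hπ.prime hx rfl P hP hroot hc

/-- **(Q3) = (SAT₂)**: the chart at infinity `B₂` (the integral closure of `O[1/j]` in `F`) is
saturated in the Gauss valuation ring.  VERBATIM the hypothesis `hsat₂` of
`Spec.H26.h26_spec` (with `j' = j⁻¹`). -/
theorem sat_chart_inv (hℓM : ¬ ℓ ∣ M) :
    ∀ v ∈ (gaussValM O M).toSubring,
      algebraMap O (FM K M) π * v ∈ chart O (jbFull K M)⁻¹ → v ∈ chart O (jbFull K M)⁻¹ := by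
  intro v hv hx
  obtain ⟨P, hP, hroot, hc⟩ := exists_monic_isLocFrac O π hπ M ℓ hℓM (x := v) hv
  exact H18.isIntegral_adjoin_of_isLocFrac
    (H18.injective_aeval_inv (jbFull_ne_zero M) (injective_aeval_jbFull O M))
    hπ.prime hx rfl P hP hroot
    (fun i => (H18.isLocFrac_inv_iff (jbFull_ne_zero M)).mpr (hc i))

/-- **(Q3) = (SAT₁₂)**: the middle chart `B₁₂` (the integral closure of `O[j, 1/j]` in `F`) is
saturated in the Gauss valuation ring.  VERBATIM the hypothesis `hsat₁₂` of
`Spec.H26.h26_spec` (with `j' = j⁻¹`). -/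
theorem sat_chart₁₂ (hℓM : ¬ ℓ ∣ M) :
    ∀ v ∈ (gaussValM O M).toSubring,
      algebraMap O (FM K M) π * v ∈ chart₁₂ O (jbFull K M) (jbFull K M)⁻¹ →
        v ∈ chart₁₂ O (jbFull K M) (jbFull K M)⁻¹ := by
  intro v hv hx
  have hjj' : jbFull K M * (jbFull K M)⁻¹ = 1 := mul_inv_cancel₀ (jbFull_ne_zero M)
  obtain ⟨n, hn⟩ := h26_chart_scale₁₂ O hjj' _ hx
  have hjV : jbFull K M ∈ (gaussValM O M).toSubring := j_mem_gaussRing O
  have h1 : jbFull K M ^ n * (algebraMap O (FM K M) π * v) =
      algebraMap O (FM K M) π * (jbFull K M ^ n * v) := by ring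
  rw [h1] at hn
  have h2 : jbFull K M ^ n * v ∈ chart O (jbFull K M) :=
    sat_chart O π hπ M ℓ hℓM _ (mul_mem (pow_mem hjV n) hv) hn
  have h3 : v = (jbFull K M)⁻¹ ^ n * (jbFull K M ^ n * v) := by
    rw [← mul_assoc, ← mul_pow, inv_mul_cancel₀ (jbFull_ne_zero M), one_pow, one_mul]
  rw [h3]
  refine mul_mem (pow_mem ?_ n) (chart_le_chart₁₂_left O _ _ h2)
  exact chart_le_chart₁₂_right O _ _ (self_mem_chart O _)

end Sat

end Fermat.Agent.S18x.Qepo
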