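import Mathlib
import Fermat.Agent.S18x.Spec.H26_Charts
import Fermat.Agent.S18x.CA.H9_RegSeq

/-!
# S18, package QEPO, leaf (SAT-H) (helper2): saturation for the charts of a second coordinate

`O` an integrally closed domain, `π : O` prime, `F` a field over `O`, `V` a subring of `F`
(the Gauss valuation ring).  Saturation of a chart `B` means `B ∩ π V = π B`, in the spelling of
`h26_spec`:  `∀ v ∈ V, π * v ∈ B → v ∈ B`.

* `h2sat_transfer` : saturation of `chart O j` gives saturation of `chart O x` for every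
  transcendental `x`, integral over `O[j]`, such that `s(x) * j ∈ O[x]` for a polynomial `s` not
  divisible by `π` (scaling trick + the regular sequence `π, s(x)` on the normal domain
  `chart O x`);
* `h2sat_chart₁₂` : saturation of `chart₁₂ O h h'` from saturation of `chart O h`;
* `h2sat_of_identity` : the three saturations for the coordinate `h` from the one for `j` and an
  identity `j * D(h) = N(h)` (`N`, `D` monic, `deg D < deg N`, `D(0) = 0`, `N(0)` a unit).
-/

set_option autoImplicit false
set_option linter.unusedSectionVars false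
set_option linter.style.haveILetI false

open Polynomial

noncomputable section

namespace Fermat.Agent.S18x.Qepo.H2

open Fermat.Agent.S18x.Spec.H26 Fermat.Agent.S18x.CA.H9

section Generic

variable {O F : Type*} [CommRing O] [IsDomain O] [IsIntegrallyClosed O] [Field F] [Algebra O F]

/-- `O[X] ≃ O[x]` for `x` transcendental over `O`. -/
def h2satEquiv (x : F) (hx : Transcendental O x) : O[X] ≃ₐ[O] ↥(Algebra.adjoin O {x}) :=
  (AlgEquiv.ofInjective (aeval x) (transcendental_iff_injective.1 hx)).trans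
    (Subalgebra.equivOfEq _ _ (Algebra.adjoin_singleton_eq_range_aeval O x).symm)

theorem h2satEquiv_coe (x : F) (hx : Transcendental O x) (p : O[X]) :
    ((h2satEquiv x hx p : ↥(Algebra.adjoin O {x})) : F) = aeval x p := rfl

theorem h2sat_aeval_mem (x : F) (p : O[X]) : aeval x p ∈ Algebra.adjoin O {x} := by
  rw [Algebra.adjoin_singleton_eq_range_aeval]
  exact ⟨p, rfl⟩

theorem h2sat_algebraMap_injective (x : F) (hx : Transcendental O x) :
    Function.Injective (algebraMap O F) := by
  intro a b hab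
  have h1 : aeval x (C a) = aeval x (C b) := by rw [aeval_C, aeval_C, hab]
  exact C_injective (transcendental_iff_injective.1 hx h1)

/-- Membership in the integral closure does not depend on the way the base subring is seen as an
algebra: `IsIntegral` over a subalgebra only depends on its carrier. -/
theorem h2sat_isIntegral_congr {O₁ O₂ : Type*} [CommRing O₁] [CommRing O₂] [Algebra O₁ F]
    [Algebra O₂ F] (A₁ : Subalgebra O₁ F) (A₂ : Subalgebra O₂ F)
    (h : ∀ z : F, z ∈ A₁ → z ∈ A₂) {z : F} (hz : IsIntegral A₁ z) : IsIntegral A₂ z := by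
  rw [h26_isIntegral_iff] at hz ⊢
  obtain ⟨p, hp, hcoeff, hz⟩ := hz
  exact ⟨p, hp, fun i => h _ (hcoeff i), hz⟩

/-- Transitivity: an element integral over the chart of `j` lies in the chart of `j`. -/
theorem h2sat_isIntegral_trans (j : F) {z : F}
    (hz : IsIntegral (integralClosure (Algebra.adjoin O {j}) F) z) :
    IsIntegral (Algebra.adjoin O {j}) z := by
  have h1 : z ∈ integralClosure (integralClosure (Algebra.adjoin O {j}) F) F := hz
  rw [integralClosure_idem] at h1
  obtain ⟨w, hw⟩ := h1
  rw [← hw]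
  exact w.2

/-- `chart O x ≤ chart O j` if `x` is integral over `O[j]`. -/
theorem h2sat_chart_le (x j : F) (hxj : IsIntegral (Algebra.adjoin O {j}) x) :
    chart O x ≤ chart O j := by
  intro z hz
  rw [mem_chart] at hz ⊢
  apply h2sat_isIntegral_trans
  refine h2sat_isIntegral_congr (Algebra.adjoin O {x})
    (integralClosure (Algebra.adjoin O {j}) F) ?_ hz
  intro y hy
  have h1 : Algebra.adjoin O {x} ≤ chart O j :=
    Algebra.adjoin_le (by
      rintro _ rfl
      exact hxj)
  exact h1 hy

/-- **The regular sequence `π, s(x)` on the chart of `x`**, element form. -/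
theorem h2sat_dvd_of_dvd_mul (x : F) (hx : Transcendental O x) (π : O) (hπ : Prime π)
    (s : O[X]) (hs : ¬ C π ∣ s) (y z : F) (hy : IsIntegral (Algebra.adjoin O {x}) y)
    (hz : IsIntegral (Algebra.adjoin O {x}) z)
    (h : aeval x s * y = algebraMap O F π * z) :
    ∃ w : F, IsIntegral (Algebra.adjoin O {x}) w ∧ y = algebraMap O F π * w := by
  haveI : IsIntegrallyClosed ↥(Algebra.adjoin O {x}) :=
    IsIntegrallyClosed.of_equiv (h2satEquiv x hx).toRingEquiv
  haveI : IsIntegrallyClosed ↥(integralClosure ↥(Algebra.adjoin O {x}) F) :=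
    IsIntegrallyClosed.of_isIntegrallyClosed_of_isIntegrallyClosedIn _ F
  haveI : Algebra.IsIntegral ↥(Algebra.adjoin O {x})
      ↥(integralClosure ↥(Algebra.adjoin O {x}) F) := inferInstance
  have e := h2satEquiv x hx
  have hπA : Prime (algebraMap O ↥(Algebra.adjoin O {x}) π) := by
    have h1 : Prime (C π : O[X]) := prime_C_iff.2 hπ
    have h2 : Prime ((h2satEquiv x hx) (C π)) := (MulEquiv.prime_iff (h2satEquiv x hx)).2 h1
    have h3 : (h2satEquiv x hx) (C π) = algebraMap O ↥(Algebra.adjoin O {x}) π := by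
      apply Subtype.ext
      show aeval x (C π) = _
      rw [aeval_C]
      rfl
    rwa [h3] at h2
  have hsA : ¬ algebraMap O ↥(Algebra.adjoin O {x}) π ∣ (h2satEquiv x hx s) := by
    intro hd
    apply hs
    have h3 : (h2satEquiv x hx) (C π) = algebraMap O ↥(Algebra.adjoin O {x}) π := by
      apply Subtype.ext
      show aeval x (C π) = _
      rw [aeval_C]
      rfl
    rw [← h3] at hd
    exact (map_dvd_iff (h2satEquiv x hx)).1 hd
  have hdvd : algebraMap ↥(Algebra.adjoin O {x}) ↥(integralClosure ↥(Algebra.adjoin O {x}) F)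
      (algebraMap O ↥(Algebra.adjoin O {x}) π) ∣
      algebraMap ↥(Algebra.adjoin O {x}) ↥(integralClosure ↥(Algebra.adjoin O {x}) F)
        (h2satEquiv x hx s) * (⟨y, hy⟩ : ↥(integralClosure ↥(Algebra.adjoin O {x}) F)) := by
    refine ⟨⟨z, hz⟩, ?_⟩
    apply Subtype.ext
    exact h
  obtain ⟨w, hw⟩ := h9_dvd_of_dvd_smul _ _ hπA hsA _ hdvd
  refine ⟨(w : F), w.2, ?_⟩
  have := congrArg (fun t : ↥(integralClosure ↥(Algebra.adjoin O {x}) F) => (t : F)) hw
  exact this

variable (V : Subring F)

/-- **(SAT-H), generic transfer**: saturation of the chart of `j` gives saturation of the chart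
of `x`. -/
theorem h2sat_transfer (x j : F) (hx : Transcendental O x) (π : O) (hπ : Prime π)
    (hxj : IsIntegral (Algebra.adjoin O {j}) x)
    (s : O[X]) (hs : ¬ C π ∣ s) (hsj : aeval x s * j ∈ Algebra.adjoin O {x})
    (hsatJ : ∀ v ∈ V, algebraMap O F π * v ∈ chart O j → v ∈ chart O j) :
    ∀ v ∈ V, algebraMap O F π * v ∈ chart O x → v ∈ chart O x := by
  intro v hvV hv
  have hvJ : v ∈ chart O j := hsatJ v hvV (h2sat_chart_le x j hxj hv)
  -- scaling
  obtain ⟨k, hk⟩ := h26_isIntegral_pow_mul (Algebra.adjoin O {x}) (Algebra.adjoin O {j})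
    (aeval x s) (h2sat_aeval_mem x s)
    (h26_exists_pow_mul_mem _ _ (h2sat_aeval_mem x s) _ (by
      rintro g rfl
      exact ⟨1, by rw [pow_one]; exact hsj⟩)) v hvJ
  have hsk : ¬ C π ∣ s ^ k := fun hd => hs ((prime_C_iff.2 hπ).dvd_of_dvd_pow hd)
  have h1 : aeval x (s ^ k) * (algebraMap O F π * v) = algebraMap O F π * (aeval x s ^ k * v) := by
    rw [map_pow]; ring
  obtain ⟨w, hw, hvw⟩ := h2sat_dvd_of_dvd_mul x hx π hπ (s ^ k) hsk _ _ hv hk h1
  have hπ0 : algebraMap O F π ≠ 0 := by
    intro h0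
    exact hπ.ne_zero (h2sat_algebraMap_injective x hx (h0.trans (map_zero _).symm))
  have : v = w := mul_left_cancel₀ hπ0 hvw
  rw [mem_chart, this]
  exact hw

/-- Saturation of `chart₁₂ O h h'` from saturation of `chart O h`. -/
theorem h2sat_chart₁₂ (h h' : F) (hhh' : h * h' = 1) (π : O) (hhV : h ∈ V)
    (hsat : ∀ v ∈ V, algebraMap O F π * v ∈ chart O h → v ∈ chart O h) :
    ∀ v ∈ V, algebraMap O F π * v ∈ chart₁₂ O h h' → v ∈ chart₁₂ O h h' := by
  intro v hvV hv
  obtain ⟨n, hn⟩ := h26_chart_scale₁₂ O hhh' _ hv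
  have h1 : h ^ n * (algebraMap O F π * v) = algebraMap O F π * (h ^ n * v) := by ring
  rw [h1] at hn
  have h2 : h ^ n * v ∈ chart O h :=
    hsat _ (V.mul_mem (V.pow_mem hhV n) hvV) hn
  have h3 : v = h' ^ n * (h ^ n * v) := by
    rw [← mul_assoc, ← mul_pow, mul_comm h' h, hhh', one_pow, one_mul]
  rw [h3]
  refine (chart₁₂ O h h').mul_mem ((chart₁₂ O h h').pow_mem ?_ n)
    (chart_le_chart₁₂_left O h h' h2)
  rw [mem_chart₁₂]
  exact h26_isIntegral_of_mem (Algebra.subset_adjoin (by simp))

end Generic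

section Identity

variable {O F : Type*} [CommRing O] [IsDomain O] [IsIntegrallyClosed O] [Field F] [Algebra O F]

/-- A monic polynomial is not divisible by a prime constant. -/
theorem h2sat_not_C_dvd_monic (π : O) (hπ : Prime π) (D : O[X]) (hD : D.Monic) : ¬ C π ∣ D := by
  intro hd
  have h1 := (C_dvd_iff_dvd_coeff π D).1 hd D.natDegree
  rw [hD.coeff_natDegree] at h1
  exact hπ.not_isUnit (isUnit_of_dvd_one h1)

/-- The reflection of a monic polynomial is not divisible by a prime constant. -/
theorem h2sat_not_C_dvd_reflect (π : O) (hπ : Prime π) (D : O[X]) (hD : D.Monic) (n : ℕ) :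
    ¬ C π ∣ reflect n D := by
  intro hd
  have h1 := (C_dvd_iff_dvd_coeff π _).1 hd (revAt n D.natDegree)
  rw [coeff_reflect, revAt_invol, hD.coeff_natDegree] at h1
  exact hπ.not_isUnit (isUnit_of_dvd_one h1)

variable (j h : F) (N D : O[X])

/-- `h` is integral over `O[j]` if `j * D(h) = N(h)` with `N` monic and `deg D < deg N`. -/
theorem h2sat_isIntegral_h (hN : N.Monic) (hdeg : D.natDegree < N.natDegree)
    (hid : j * aeval h D = aeval h N) : IsIntegral (Algebra.adjoin O {j}) h := by
  classical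
  haveI : Nontrivial ↥(Algebra.adjoin O {j}) := inferInstance
  set jA : ↥(Algebra.adjoin O {j}) := ⟨j, Algebra.subset_adjoin (Set.mem_singleton j)⟩ with hjA
  set f := algebraMap O ↥(Algebra.adjoin O {j}) with hf
  refine ⟨N.map f - C jA * D.map f, ?_, ?_⟩
  · apply (hN.map f).sub_of_left
    have h1 : (C jA * D.map f).natDegree ≤ D.natDegree :=
      (natDegree_C_mul_le _ _).trans natDegree_map_le
    have h2 : (N.map f).natDegree = N.natDegree := hN.natDegree_map f
    have h3 : (C jA * D.map f).natDegree < (N.map f).natDegree := by omega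
    exact degree_lt_degree h3
  · rw [eval₂_sub, eval₂_mul, eval₂_C, eval₂_map, eval₂_map]
    have h4 : (algebraMap ↥(Algebra.adjoin O {j}) F).comp f = algebraMap O F := by
      ext a
      rfl
    rw [h4]
    have h5 : algebraMap ↥(Algebra.adjoin O {j}) F jA = j := rfl
    rw [h5, ← aeval_def, ← aeval_def, hid, sub_self]

/-- `h⁻¹` is integral over `O[j]` if moreover `D(0) = 0` and `N(0)` is a unit. -/
theorem h2sat_isIntegral_inv (hN : N.Monic) (hdeg : D.natDegree < N.natDegree)
    (hid : j * aeval h D = aeval h N) (hD0 : D.coeff 0 = 0) (u : O) (hu : u * N.coeff 0 = 1) :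
    IsIntegral (Algebra.adjoin O {j}) h⁻¹ := by
  have hh : h ∈ chart O j := h2sat_isIntegral_h j h N D hN hdeg hid
  have hjj : j ∈ chart O j := self_mem_chart O j
  have hDX : D = divX D * X := by
    conv_lhs => rw [← divX_mul_X_add D, hD0, map_zero, add_zero]
  have hNX : N = divX N * X + C (N.coeff 0) := (divX_mul_X_add N).symm
  have h1 : aeval h D = aeval h (divX D) * h := by
    conv_lhs => rw [hDX, map_mul, aeval_X]
  have h2 : aeval h N = aeval h (divX N) * h + algebraMap O F (N.coeff 0) := by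
    conv_lhs => rw [hNX, map_add, map_mul, aeval_X, aeval_C]
  have h3 : h * (algebraMap O F u * (j * aeval h (divX D) - aeval h (divX N))) = 1 := by
    have h4 : algebraMap O F (N.coeff 0) = h * (j * aeval h (divX D) - aeval h (divX N)) := by
      have := hid
      rw [h1, h2] at this
      linear_combination -this
    have h5 : algebraMap O F u * algebraMap O F (N.coeff 0) = 1 := by
      rw [← map_mul, hu, map_one]
    rw [← h5, h4]
    ring
  have h6 : h⁻¹ = algebraMap O F u * (j * aeval h (divX D) - aeval h (divX N)) :=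
    (eq_inv_of_mul_eq_one_right h3).symm
  have hmem : ∀ p : O[X], aeval h p ∈ chart O j := by
    intro p
    have h7 : Algebra.adjoin O {h} ≤ chart O j :=
      Algebra.adjoin_le (by
        rintro _ rfl
        exact hh)
    exact h7 (h2sat_aeval_mem h p)
  have h8 : h⁻¹ ∈ chart O j := by
    rw [h6]
    exact (chart O j).mul_mem ((chart O j).algebraMap_mem u)
      ((chart O j).sub_mem ((chart O j).mul_mem hjj (hmem _)) (hmem _))
  exact h8

/-- `D^(h⁻¹) * j = N^(h⁻¹)` for the reflected polynomials. -/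
theorem h2sat_reflect_identity (hdeg : D.natDegree < N.natDegree) (hh0 : h ≠ 0)
    (hid : j * aeval h D = aeval h N) :
    aeval h⁻¹ (reflect N.natDegree D) * j = aeval h⁻¹ (reflect N.natDegree N) := by
  letI := invertibleOfNonzero hh0
  have h1 := eval₂_reflect_mul_pow (algebraMap O F) h N.natDegree D hdeg.le
  have h2 := eval₂_reflect_mul_pow (algebraMap O F) h N.natDegree N le_rfl
  rw [invOf_eq_inv] at h1 h2
  have h3 : h ^ N.natDegree ≠ 0 := pow_ne_zero _ hh0
  apply mul_right_cancel₀ h3
  rw [aeval_def, aeval_def, h2, mul_right_comm, h1, ← aeval_def, ← aeval_def, ← hid, mul_comm]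

variable (V : Subring F)

/-- **(SAT-H) from a Hauptmodul identity**: saturation of `chart O j` gives saturation of
`chart O h`, `chart O h⁻¹` and `chart₁₂ O h h⁻¹`. -/
theorem h2sat_of_identity (hh : Transcendental O h) (π : O) (hπ : Prime π)
    (hN : N.Monic) (hD : D.Monic) (hdeg : D.natDegree < N.natDegree)
    (hid : j * aeval h D = aeval h N) (hD0 : D.coeff 0 = 0) (u : O) (hu : u * N.coeff 0 = 1)
    (hhV : h ∈ V)
    (hsatJ : ∀ v ∈ V, algebraMap O F π * v ∈ chart O j → v ∈ chart O j) :
    (∀ v ∈ V, algebraMap O F π * v ∈ chart O h → v ∈ chart O h) ∧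
    (∀ v ∈ V, algebraMap O F π * v ∈ chart O h⁻¹ → v ∈ chart O h⁻¹) ∧
    (∀ v ∈ V, algebraMap O F π * v ∈ chart₁₂ O h h⁻¹ → v ∈ chart₁₂ O h h⁻¹) := by
  have hh0 : h ≠ 0 := by
    rintro rfl
    exact hh ⟨X, X_ne_zero, by simp⟩
  have hinv : Transcendental O h⁻¹ := fun hal => hh (IsAlgebraic.inv_iff.1 hal)
  have h1 : ∀ v ∈ V, algebraMap O F π * v ∈ chart O h → v ∈ chart O h :=
    h2sat_transfer V h j hh π hπ (h2sat_isIntegral_h j h N D hN hdeg hid) D
      (h2sat_not_C_dvd_monic π hπ D hD)
      (by rw [mul_comm, hid]; exact h2sat_aeval_mem h N) hsatJ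
  refine ⟨h1, ?_, ?_⟩
  · exact h2sat_transfer V h⁻¹ j hinv π hπ
      (h2sat_isIntegral_inv j h N D hN hdeg hid hD0 u hu) (reflect N.natDegree D)
      (h2sat_not_C_dvd_reflect π hπ D hD _)
      (by rw [h2sat_reflect_identity j h N D hdeg hh0 hid]; exact h2sat_aeval_mem _ _) hsatJ
  · exact h2sat_chart₁₂ V h h⁻¹ (mul_inv_cancel₀ hh0) π hhV h1

end Identity

end Fermat.Agent.S18x.Qepo.H2
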