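import Mathlib
import Fermat.Prelude.Def_ModularCurve_LaurentCoeff
import Fermat.Agent.S28.Alg.H6_RedAbs

/-!
# S18, package QEPO (helper1): the Gauss reduction over a general discrete valuation ring

`K` a field, `O : ValuationSubring K` a discrete valuation ring with uniformiser `π`,
`κ = O / π` its residue field.  `Λ = O((q)) ⊆ K((q))`, `red : Λ → κ((q))` the coefficientwise
reduction.  We check the axioms of the abstract Gauss reduction `RedAbs.RedData` of S28
(`ker red = π Λ`, `Λ` is `π`-adically separated) and obtain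

  `redO O π hπ : RedData K((q)) κ((q))`,

hence the Gauss ring `gaussRing = {a / b : a, b ∈ Λ, red b ≠ 0}` with its reduction
`gaussRed : gaussRing → κ((q))`, `ker = π · gaussRing`, units, valuation-ring property
(all from `S28/Alg/H6_RedAbs`).
-/

set_option autoImplicit false

open ModularCurve

noncomputable section

namespace Fermat.Agent.S18x.Qepo

open Fermat.Agent.S28.Alg.RedAbs

variable {K : Type*} [Field K] (O : ValuationSubring K)

/-- The residue field of `O`. -/
abbrev Kap : Type _ := IsLocalRing.ResidueField O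

/-- The inclusion `O((q)) → K((q))`. -/
def iotaO : LaurentSeries O →+* LaurentSeries K := coeffMap O.subtype

/-- The coefficientwise reduction `O((q)) → κ((q))`. -/
def redO : LaurentSeries O →+* LaurentSeries (Kap O) := coeffMap (IsLocalRing.residue O)

theorem iotaO_coeff (f : LaurentSeries O) (n : ℤ) : (iotaO O f).coeff n = (f.coeff n : K) := rfl

theorem redO_coeff (f : LaurentSeries O) (n : ℤ) :
    (redO O f).coeff n = IsLocalRing.residue O (f.coeff n) := rfl

theorem iotaO_injective : Function.Injective (iotaO O) := by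
  intro f g h
  ext n
  have := congrArg (fun x => HahnSeries.coeff x n) h
  exact this

/-- `Λ`: the Laurent series all of whose coefficients lie in `O`. -/
def lamO : Subring (LaurentSeries K) := (iotaO O).range

/-- The lift of a series with coefficients in `O`. -/
def liftO (f : LaurentSeries K) (hf : ∀ n, f.coeff n ∈ O) : LaurentSeries O where
  coeff n := ⟨f.coeff n, hf n⟩
  isPWO_support' := by
    refine f.isPWO_support.mono ?_
    intro n hn
    simp only [Function.mem_support, ne_eq] at hn
    simp only [HahnSeries.mem_support, ne_eq]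
    intro h0
    apply hn
    exact Subtype.ext h0

theorem iotaO_liftO (f : LaurentSeries K) (hf : ∀ n, f.coeff n ∈ O) :
    iotaO O (liftO O f hf) = f := by
  ext n
  rfl

theorem mem_lamO_iff {f : LaurentSeries K} : f ∈ lamO O ↔ ∀ n, f.coeff n ∈ O := by
  constructor
  · rintro ⟨g, rfl⟩ n
    exact (g.coeff n).2
  · intro hf
    exact ⟨liftO O f hf, iotaO_liftO O f hf⟩

theorem iotaO_mem_lamO (f : LaurentSeries O) : iotaO O f ∈ lamO O := ⟨f, rfl⟩

/-- `O((q)) ≃ Λ`. -/
def lamEquiv : LaurentSeries O ≃+* lamO O :=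
  RingEquiv.ofBijective (iotaO O).rangeRestrict
    ⟨fun _ _ h => iotaO_injective O (congrArg Subtype.val h), (iotaO O).rangeRestrict_surjective⟩

theorem lamEquiv_apply (f : LaurentSeries O) :
    ((lamEquiv O f : lamO O) : LaurentSeries K) = iotaO O f := rfl

theorem iotaO_lamEquiv_symm (a : lamO O) : iotaO O ((lamEquiv O).symm a) = a := by
  rw [← lamEquiv_apply, RingEquiv.apply_symm_apply]

/-- The coefficientwise reduction `Λ → κ((q))`. -/
def redLam : lamO O →+* LaurentSeries (Kap O) :=
  (redO O).comp (lamEquiv O).symm.toRingHom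

theorem redLam_iotaO (f : LaurentSeries O) :
    redLam O ⟨iotaO O f, iotaO_mem_lamO O f⟩ = redO O f := by
  have : (lamEquiv O).symm ⟨iotaO O f, iotaO_mem_lamO O f⟩ = f := by
    rw [RingEquiv.symm_apply_eq]
    rfl
  show redO O ((lamEquiv O).symm ⟨iotaO O f, iotaO_mem_lamO O f⟩) = _
  rw [this]

theorem redLam_coeff (a : lamO O) (n : ℤ) :
    (redLam O a).coeff n =
      IsLocalRing.residue O ⟨(a : LaurentSeries K).coeff n, (mem_lamO_iff O).mp a.2 n⟩ := by
  show IsLocalRing.residue O (((lamEquiv O).symm a).coeff n) = _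
  congr 1
  apply Subtype.ext
  show ((((lamEquiv O).symm a).coeff n : O) : K) = (a : LaurentSeries K).coeff n
  rw [← iotaO_coeff, iotaO_lamEquiv_symm]

theorem C_mul_coeff (c : K) (f : LaurentSeries K) (n : ℤ) :
    (HahnSeries.C c * f).coeff n = c * f.coeff n := by
  rw [HahnSeries.C_mul_eq_smul, HahnSeries.coeff_smul, smul_eq_mul]

theorem C_mem_lamO (c : O) : (HahnSeries.C (c : K) : LaurentSeries K) ∈ lamO O := by
  rw [mem_lamO_iff]
  intro n
  rw [HahnSeries.C_apply, HahnSeries.coeff_single]
  split_ifs
  · exact c.2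
  · exact O.zero_mem

theorem redLam_C (c : O) :
    redLam O ⟨HahnSeries.C (c : K), C_mem_lamO O c⟩ = HahnSeries.C (IsLocalRing.residue O c) := by
  ext n
  rw [redLam_coeff]
  simp only [HahnSeries.C_apply, HahnSeries.coeff_single]
  split_ifs with h
  · rfl
  · change IsLocalRing.residue O (0 : O) = 0
    exact map_zero _

section DVR

variable [IsDiscreteValuationRing O] (π : O) (hπ : Irreducible π)

include hπ

theorem residue_eq_zero_iff (x : O) : IsLocalRing.residue O x = 0 ↔ ∃ y : O, x = π * y := by
  rw [IsLocalRing.residue_eq_zero_iff, hπ.maximalIdeal_eq, Ideal.mem_span_singleton]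
  exact Iff.rfl

omit [IsDiscreteValuationRing O] in
theorem pi_ne_zero : (π : K) ≠ 0 := by
  intro h
  exact hπ.ne_zero (Subtype.ext h)

theorem redLam_pi :
    redLam O ⟨(HahnSeries.C (π : K) : LaurentSeries K), C_mem_lamO O π⟩ = 0 := by
  rw [redLam_C, (residue_eq_zero_iff O π hπ π).mpr ⟨1, (mul_one π).symm⟩, map_zero]

/-- `ker red = π Λ`. -/
theorem redLam_ker (a : lamO O) (ha : redLam O a = 0) :
    ∃ a' : lamO O, (a : LaurentSeries K) =
      (HahnSeries.C (π : K) : LaurentSeries K) * (a' : LaurentSeries K) := by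
  have hπK := pi_ne_zero O π hπ
  have hcoef : ∀ n, (π : K)⁻¹ * (a : LaurentSeries K).coeff n ∈ O := by
    intro n
    have h1 := congrArg (fun x => HahnSeries.coeff x n) ha
    simp only [HahnSeries.coeff_zero] at h1
    rw [redLam_coeff, residue_eq_zero_iff O π hπ] at h1
    obtain ⟨y, hy⟩ := h1
    have h2 : (a : LaurentSeries K).coeff n = (π : K) * (y : K) := congrArg Subtype.val hy
    rw [h2, ← mul_assoc, inv_mul_cancel₀ hπK, one_mul]
    exact y.2
  set b : LaurentSeries K := HahnSeries.C ((π : K)⁻¹) * (a : LaurentSeries K) with hb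
  have hbmem : b ∈ lamO O := by
    rw [mem_lamO_iff]
    intro n
    rw [hb, C_mul_coeff]
    exact hcoef n
  refine ⟨⟨b, hbmem⟩, ?_⟩
  show (a : LaurentSeries K) = (HahnSeries.C (π : K) : LaurentSeries K) * b
  rw [hb, ← mul_assoc, ← map_mul, mul_inv_cancel₀ hπK, map_one, one_mul]

/-- `Λ` is `π`-adically separated (auxiliary form, by induction on the valuation of a
nonzero coefficient). -/
theorem redLam_sep_aux (v : ℕ) : ∀ (a : lamO O) (n : ℤ) (u : O), IsUnit u →
    (a : LaurentSeries K).coeff n = (u : K) * (π : K) ^ v →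
    ∃ (m : ℕ) (a' : lamO O), (a : LaurentSeries K) =
      (HahnSeries.C (π : K) : LaurentSeries K) ^ m * (a' : LaurentSeries K) ∧
      redLam O a' ≠ 0 := by
  have hπK := pi_ne_zero O π hπ
  induction v with
  | zero =>
    intro a n u hu hv
    refine ⟨0, a, by rw [pow_zero, one_mul], ?_⟩
    intro h0
    have h1 := congrArg (fun x => HahnSeries.coeff x n) h0
    simp only [HahnSeries.coeff_zero] at h1
    rw [redLam_coeff] at h1
    have h2 : (⟨(a : LaurentSeries K).coeff n, (mem_lamO_iff O).mp a.2 n⟩ : O) = u := by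
      apply Subtype.ext
      show (a : LaurentSeries K).coeff n = (u : K)
      rw [hv, pow_zero, mul_one]
    rw [h2] at h1
    have h3 : ¬ IsUnit u := by
      rw [← mem_nonunits_iff, ← IsLocalRing.mem_maximalIdeal, ← IsLocalRing.residue_eq_zero_iff]
      exact h1
    exact h3 hu
  | succ v ih =>
    intro a n u hu hv
    by_cases h0 : redLam O a = 0
    · obtain ⟨a', ha'⟩ := redLam_ker O π hπ a h0
      have h1 : (a' : LaurentSeries K).coeff n = (u : K) * (π : K) ^ v := by
        have h2 : (a : LaurentSeries K).coeff n = (π : K) * (a' : LaurentSeries K).coeff n := by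
          rw [ha', C_mul_coeff]
        rw [h2, pow_succ] at hv
        apply mul_left_cancel₀ hπK
        rw [hv]
        ring
      obtain ⟨m, a'', ha'', hr⟩ := ih a' n u hu h1
      refine ⟨m + 1, a'', ?_, hr⟩
      rw [ha', ha'', pow_succ]
      ring
    · exact ⟨0, a, by rw [pow_zero, one_mul], h0⟩

/-- `Λ` is `π`-adically separated. -/
theorem redLam_sep (a : lamO O) (ha : a ≠ 0) :
    ∃ (m : ℕ) (a' : lamO O), (a : LaurentSeries K) =
      (HahnSeries.C (π : K) : LaurentSeries K) ^ m * (a' : LaurentSeries K) ∧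
      redLam O a' ≠ 0 := by
  have h1 : (a : LaurentSeries K) ≠ 0 := fun h => ha (Subtype.ext h)
  obtain ⟨n, hn⟩ : ∃ n, (a : LaurentSeries K).coeff n ≠ 0 := by
    by_contra hcon
    apply h1
    ext n
    by_contra hne
    exact hcon ⟨n, hne⟩
  have hmem := (mem_lamO_iff O).mp a.2 n
  have hne : (⟨(a : LaurentSeries K).coeff n, hmem⟩ : O) ≠ 0 := fun h => hn (congrArg Subtype.val h)
  obtain ⟨v, u, hu⟩ := IsDiscreteValuationRing.eq_unit_mul_pow_irreducible hne hπ
  refine redLam_sep_aux O π hπ v a n u u.isUnit ?_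
  have := congrArg Subtype.val hu
  simpa using this

/-- **The Gauss reduction datum on `K((q))`** for the discrete valuation ring `O`. -/
def redData : RedData (LaurentSeries K) (LaurentSeries (Kap O)) where
  Lam := lamO O
  π := (HahnSeries.C (π : K) : LaurentSeries K)
  π_mem := C_mem_lamO O π
  red := redLam O
  red_π := redLam_pi O π hπ
  ker := redLam_ker O π hπ
  sep := redLam_sep O π hπ

end DVR

end Fermat.Agent.S18x.Qepo
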